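/-
S55 (Poitou–Tate), package C8 (reciprocity / Hasse principle / class module) — helper29.

MODEL-INDEPENDENT CORE, sorry-free.  Everything is stated over an abstract finite "layer"
(`G = Gal(L'/L)`, `M = L'ˣ` as a `Rep ℤ G`, `V` = places of `L`, `linv v = inv_v ∘ loc_v` on
`H²(G, M)`, values in an abstract group `Q`, `Q = ℚ/ℤ` in the application), in Mathlib's
`groupCohomology` language, so that it does not depend on the concrete definitions of the
semi-local modules and of the local invariants (packages C3, C5).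

* `Layer` (data), `Layer.Infl` (a bigger top field, or another presentation of the same layer),
  `SubTower` / `Tower` (an intermediate field `E`, resp. a normal one); the compatibilities of
  the local invariants with inflation / restriction are the Props `Layer.Infl.Compat`,
  `SubTower.Compat`, `Tower.InfCompat` (leaves of packages C5 + C3).
* `Tower.recAt_of_split` : reciprocity for a class split by `E`, from the Hasse principle over
  `E`, inflation–restriction, and reciprocity for the layer `E/L`.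
* `SubTower.hasseP_of_sub`, `Layer.Infl.hasseP` : the `p`-primary Hasse principle passes from a
  subgroup of index prime to `p` (C1-b) and from a bigger top field (injective inflation).
* `SData` (data) : `U` = `S`-units, `J` = `S`-ideles, `C` = `S`-idele classes, `I` = `M/U`;
  `SData.Good` : the sequences `0 → U → M → I → 0`, `0 → U → J → C → 0` are exact, and the two
  detection properties supplied by C5; `SData.hasse` : Hasse principle from `H¹(G, C) = 0`.
* `SData.exact_of_count`, `SData.exists_global_of_count` : if reciprocity holds for the classes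
  of `S`-units, `#H²(G, C) ∣ n` and some class of `S`-ideles has invariant sum of order `n`, then
  `H²(G, U) → H²(G, J) → Q` is exact, `H²(G, J) → H²(G, C)` is onto and `#H²(G, C) = n`.
* `hasseP_of_leaves`, `rec_of_leaves` : the assembly of the exports `HassePStatement`,
  `RecStatement` from the leaf statements `ReduceStatement`, `SDataStatement`,
  `CycRecStatement`, `CycSplitStatement`.
-/
import Mathlib

set_option autoImplicit false

open CategoryTheory groupCohomology Rep

noncomputable section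

namespace Fermat.Agent.S55.H29

/-- The map `H²(G, A) → H²(G, B)` induced by a morphism of representations. -/
def mapH2 {k G : Type} [CommRing k] [Group G] {A B : Rep.{0, 0, 0} k G} (f : A ⟶ B) :
    groupCohomology A 2 →+ groupCohomology B 2 :=
  ((functor k G 2).map f).hom.toAddMonoidHom

/-- Restriction `H²(G, A) → H²(H, A)` as an additive map. -/
def resH2 {k G : Type} [CommRing k] [Group G] (A : Rep.{0, 0, 0} k G) (H : Subgroup G) :
    groupCohomology A 2 →+ groupCohomology (res H.subtype A) 2 :=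
  (groupCohomology.map H.subtype (𝟙 (res H.subtype A)) 2).hom.toAddMonoidHom

/-- Inflation `H²(G ⧸ H, A^H) → H²(G, A)` as an additive map. -/
def infH2 {k G : Type} [CommRing k] [Group G] (A : Rep.{0, 0, 0} k G) (H : Subgroup G)
    [H.Normal] :
    groupCohomology (A.quotientToInvariants H) 2 →+ groupCohomology A 2 :=
  (groupCohomology.map (QuotientGroup.mk' H)
    (ofHom <| A.ρ.quotientToInvariants_lift H) 2).hom.toAddMonoidHom

/-- Exactness of `H²(G, X₁) → H²(G, X₂) → H²(G, X₃)`, elementwise. -/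
theorem exists_mapH2_eq {G : Type} [Group G] {X : ShortComplex (Rep.{0, 0, 0} ℤ G)}
    (hX : X.ShortExact) (y : groupCohomology X.X₂ 2) (hy : mapH2 X.g y = 0) :
    ∃ x : groupCohomology X.X₁ 2, mapH2 X.f x = y :=
  (ShortComplex.moduleCat_exact_iff _).1 (mapShortComplex₂_exact hX 2) y hy

/-- Injectivity of `H²(G, X₁) → H²(G, X₂)` when `H¹(G, X₃) = 0`, elementwise. -/
theorem eq_zero_of_mapH2_eq_zero {G : Type} [Group G] {X : ShortComplex (Rep.{0, 0, 0} ℤ G)}
    (hX : X.ShortExact) (h1 : Limits.IsZero (groupCohomology X.X₃ 1))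
    (x : groupCohomology X.X₁ 2) (hx : mapH2 X.f x = 0) : x = 0 := by
  obtain ⟨z, hz⟩ := (ShortComplex.moduleCat_exact_iff _).1
    (mapShortComplex₁_exact hX (i := 1) (j := 2) rfl) x hx
  have hs : Subsingleton (groupCohomology X.X₃ 1) := ModuleCat.subsingleton_of_isZero h1
  have hz0 : z = 0 := @Subsingleton.elim _ hs z 0
  rw [← hz, hz0]
  exact map_zero _

/-- **Counting lemma.**  `P : A → B`, `s : A → Q` additive with `ker P ≤ ker s`, `#B ∣ n`, and an
element whose image under `s` has order `n > 0`.  Then `ker s = ker P`, `P` is onto and `#B = n`. -/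
theorem count_core {A B Q : Type*} [AddCommGroup A] [AddCommGroup B] [AddCommGroup Q]
    (P : A →+ B) (s : A →+ Q) (hle : P.ker ≤ s.ker) (n : ℕ) (hn : 0 < n)
    (hcard : Nat.card B ∣ n) (x₀ : A) (hx₀ : addOrderOf (s x₀) = n) :
    s.ker = P.ker ∧ Function.Surjective P ∧ Nat.card B = n := by
  have hB0 : Nat.card B ≠ 0 := fun h => by rw [h, zero_dvd_iff] at hcard; omega
  have : Finite B := Nat.finite_of_card_ne_zero hB0
  have h1 : P.ker.index = Nat.card P.range := AddSubgroup.index_ker P
  have h2 : Nat.card P.range ∣ Nat.card B := AddSubgroup.card_addSubgroup_dvd_card _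
  have h3 : s.ker.index ∣ P.ker.index := AddSubgroup.index_dvd_of_le hle
  have h4 : s.ker.index = Nat.card s.range := AddSubgroup.index_ker s
  have hP0 : P.ker.index ≠ 0 := by
    rw [h1]; exact fun h => hB0 (by rw [h, zero_dvd_iff] at h2; exact h2)
  have hs0 : Nat.card s.range ≠ 0 := by
    rw [← h4]; exact fun h => hP0 (by rw [h, zero_dvd_iff] at h3; exact h3)
  have : Finite s.range := Nat.finite_of_card_ne_zero hs0
  have h5 : n ∣ Nat.card s.range := by
    have hz : AddSubgroup.zmultiples (s x₀) ≤ s.range := by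
      rw [AddSubgroup.zmultiples_le]; exact ⟨x₀, rfl⟩
    have := AddSubgroup.card_dvd_of_le hz
    rwa [Nat.card_zmultiples, hx₀] at this
  have e1 : Nat.card s.range = n :=
    Nat.dvd_antisymm (((h4 ▸ h3).trans (h1 ▸ h2)).trans hcard) h5
  have e2 : Nat.card P.range = n :=
    Nat.dvd_antisymm (h2.trans hcard) (by rw [← h1]; exact (e1 ▸ h4 ▸ h3))
  have e3 : Nat.card B = n := Nat.dvd_antisymm hcard (e2 ▸ h2)
  refine ⟨?_, ?_, e3⟩
  · refine le_antisymm ?_ hle
    have h6 := AddSubgroup.relIndex_mul_index hle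
    rw [h4, e1, h1, e2] at h6
    have h7 : P.ker.relIndex s.ker = 1 := by
      have : P.ker.relIndex s.ker * n = 1 * n := by rw [h6, one_mul]
      exact Nat.eq_of_mul_eq_mul_right hn this
    exact AddSubgroup.relIndex_eq_one.1 h7
  · rw [← AddMonoidHom.range_eq_top]
    exact (AddSubgroup.card_eq_iff_eq_top _).1 (e2.trans e3.symm)

/-- An abstract finite layer `L'/L` seen through its Brauer classes: `G = Gal(L'/L)`,
`M = L'ˣ`, `V` = the places of `L`, and `linv v α = inv_v (loc_v α)` with values in `Q`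
(`Q = ℚ/ℤ` in the application). -/
structure Layer (Q : Type) [AddCommGroup Q] where
  /-- the Galois group of the layer -/
  G : Type
  [instGroup : Group G]
  /-- the multiplicative group of the top field -/
  M : Rep.{0, 0, 0} ℤ G
  /-- the places of the bottom field -/
  V : Type
  /-- the local invariant at `v` of a global class -/
  linv : V → (groupCohomology M 2 →+ Q)

attribute [instance] Layer.instGroup

variable {Q : Type} [AddCommGroup Q]

namespace Layer

/-- Reciprocity for one class: the sum of its local invariants vanishes. -/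
def RecAt (ℓ : Layer Q) (α : groupCohomology ℓ.M 2) : Prop := ∑ᶠ v, ℓ.linv v α = 0

/-- Hasse principle (in invariant form): a class all of whose local invariants vanish is zero. -/
def Hasse (ℓ : Layer Q) : Prop := ∀ α : groupCohomology ℓ.M 2, (∀ v, ℓ.linv v α = 0) → α = 0

/-- Hasse principle for the `p`-primary classes. -/
def HasseP (p : ℕ) (ℓ : Layer Q) : Prop :=
  ∀ α : groupCohomology ℓ.M 2, (∃ k : ℕ, p ^ k • α = 0) → (∀ v, ℓ.linv v α = 0) → α = 0

theorem Hasse.hasseP {ℓ : Layer Q} (h : ℓ.Hasse) (p : ℕ) : ℓ.HasseP p := fun α _ hα => h α hα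

/-- The data of a layer `ℓ' = L''/L` with `L ⊆ L' ⊆ L''`, where `ℓ` is `L'/L` (also used for
isomorphic presentations of the same layer): the restriction `φ` of Galois groups, the inclusion
`f` of multiplicative groups, and the identification `σ` of the places of `L`. -/
structure Infl (ℓ ℓ' : Layer Q) where
  φ : ℓ'.G →* ℓ.G
  f : res φ ℓ.M ⟶ ℓ'.M
  σ : ℓ'.V ≃ ℓ.V

/-- The inflation map of an `Infl`. -/
def Infl.map {ℓ ℓ' : Layer Q} (I : Infl ℓ ℓ') : groupCohomology ℓ.M 2 →+ groupCohomology ℓ'.M 2 :=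
  (groupCohomology.map I.φ I.f 2).hom.toAddMonoidHom

/-- Inflation preserves the local invariants (C5 + C3 `LeafInvInfl`). -/
def Infl.Compat {ℓ ℓ' : Layer Q} (I : Infl ℓ ℓ') : Prop :=
  ∀ (v : ℓ'.V) (α : groupCohomology ℓ.M 2), ℓ'.linv v (I.map α) = ℓ.linv (I.σ v) α

/-- Reciprocity descends along inflation. -/
theorem Infl.recAt {ℓ ℓ' : Layer Q} (I : Infl ℓ ℓ') (hI : I.Compat) (α : groupCohomology ℓ.M 2)
    (h : ℓ'.RecAt (I.map α)) : ℓ.RecAt α := by
  unfold RecAt at *
  rw [← h, ← finsum_comp_equiv I.σ]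
  exact finsum_congr fun v => (hI v α).symm

/-- The `p`-primary Hasse principle descends along an injective inflation. -/
theorem Infl.hasseP {ℓ ℓ' : Layer Q} (I : Infl ℓ ℓ') (hI : I.Compat)
    (hinj : Function.Injective I.map) {p : ℕ} (h : ℓ'.HasseP p) : ℓ.HasseP p := by
  intro α ⟨k, hk⟩ hα
  refine hinj ?_
  rw [map_zero]
  refine h _ ⟨k, by rw [← map_nsmul, hk, map_zero]⟩ fun v => ?_
  rw [hI, hα]

end Layer

/-- The data of an intermediate field `E` of the layer `ℓ = L'/L` (`H = Gal(L'/E)`, not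
necessarily normal): the places `W` of `E` with their local degrees and the invariants of the
layer `L'/E`. -/
structure SubTower (ℓ : Layer Q) where
  H : Subgroup ℓ.G
  /-- the places of `E` -/
  W : Type
  below : W → ℓ.V
  /-- the local degree `[E_w : L_v]` -/
  deg : W → ℕ
  linvSub : W → (groupCohomology (res H.subtype ℓ.M) 2 →+ Q)

namespace SubTower

variable {ℓ : Layer Q}

/-- The layer `L'/E`. -/
def sub (τ : SubTower ℓ) : Layer Q where
  G := τ.H
  M := res τ.H.subtype ℓ.M
  V := τ.W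
  linv := τ.linvSub

/-- Restriction multiplies the local invariants by the local degrees (C5 + C3 `LeafInvRes`). -/
def Compat (τ : SubTower ℓ) : Prop :=
  ∀ (w : τ.W) (α : groupCohomology ℓ.M 2),
    τ.linvSub w (resH2 ℓ.M τ.H α) = τ.deg w • ℓ.linv (τ.below w) α

/-- The kernel of restriction to `H` is killed by an integer prime to `p`
(package C1-b when `p ∤ [G : H]`). -/
def ResInjP (τ : SubTower ℓ) (p : ℕ) : Prop :=
  ∀ β : groupCohomology ℓ.M 2, resH2 ℓ.M τ.H β = 0 → ∃ m : ℕ, m.Coprime p ∧ m • β = 0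

theorem res_eq_zero_of_hasseP (τ : SubTower ℓ) (hτ : τ.Compat) {p : ℕ} (hH : τ.sub.HasseP p)
    (α : groupCohomology ℓ.M 2) (hα : ∃ k : ℕ, p ^ k • α = 0)
    (hdeg : ∀ w, τ.deg w • ℓ.linv (τ.below w) α = 0) : resH2 ℓ.M τ.H α = 0 := by
  obtain ⟨k, hk⟩ := hα
  have hk' : p ^ k • resH2 ℓ.M τ.H α = 0 := by rw [← map_nsmul, hk, map_zero]
  exact hH _ ⟨k, hk'⟩ fun w => (hτ w α).trans (hdeg w)

/-- **Sylow reduction.**  The `p`-primary Hasse principle passes from `L'/E` to `L'/L` when the
kernel of the restriction is killed by an integer prime to `p`. -/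
theorem hasseP_of_sub (τ : SubTower ℓ) (hτ : τ.Compat) {p : ℕ} (hres : τ.ResInjP p)
    (hH : τ.sub.HasseP p) : ℓ.HasseP p := by
  intro α hα hloc
  have h0 : resH2 ℓ.M τ.H α = 0 :=
    τ.res_eq_zero_of_hasseP hτ hH α hα fun w => by rw [hloc, smul_zero]
  obtain ⟨m, hm, hmα⟩ := hres α h0
  obtain ⟨k, hk⟩ := hα
  have h1 : addOrderOf α ∣ Nat.gcd m (p ^ k) :=
    Nat.dvd_gcd (addOrderOf_dvd_iff_nsmul_eq_zero.2 hmα) (addOrderOf_dvd_iff_nsmul_eq_zero.2 hk)
  rw [Nat.Coprime.pow_right k hm] at h1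
  exact AddMonoid.addOrderOf_eq_one_iff.mp (Nat.dvd_one.mp h1)

end SubTower

/-- The data of a normal intermediate field `E` of the layer `ℓ = L'/L`: a `SubTower` with `H`
normal, plus the invariants of the layer `E/L`. -/
structure Tower (ℓ : Layer Q) extends SubTower ℓ where
  [normal : H.Normal]
  linvQuot : ℓ.V → (groupCohomology (ℓ.M.quotientToInvariants H) 2 →+ Q)

attribute [instance] Tower.normal

namespace Tower

variable {ℓ : Layer Q}

/-- The layer `E/L`. -/
def quot (τ : Tower ℓ) : Layer Q where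
  G := ℓ.G ⧸ τ.H
  M := ℓ.M.quotientToInvariants τ.H
  V := ℓ.V
  linv := τ.linvQuot

/-- Inflation from `E/L` preserves the local invariants (C5 + C3 `LeafInvInfl`). -/
def InfCompat (τ : Tower ℓ) : Prop :=
  ∀ (v : ℓ.V) (γ : groupCohomology (ℓ.M.quotientToInvariants τ.H) 2),
    ℓ.linv v (infH2 ℓ.M τ.H γ) = τ.linvQuot v γ

/-- Exactness of `H²(G ⧸ H, M^H) → H²(G, M) → H²(H, M)` in the middle (package C1-c, with
Hilbert 90 for `L'/E`). -/
def InfResExact (τ : Tower ℓ) : Prop :=
  ∀ α : groupCohomology ℓ.M 2, resH2 ℓ.M τ.H α = 0 → ∃ γ, infH2 ℓ.M τ.H γ = α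

/-- **Reduction of reciprocity to a splitting layer.**  If `α` is `p`-primary and killed locally
by the local degrees of `E`, the `p`-primary Hasse principle holds over `E`, and reciprocity holds
for the classes of `E/L` inflating to `α`, then reciprocity holds for `α`. -/
theorem recAt_of_split (τ : Tower ℓ) (hτ : τ.Compat) (hτ' : τ.InfCompat) {p : ℕ}
    (hH : τ.sub.HasseP p) (hE : τ.InfResExact)
    (α : groupCohomology ℓ.M 2) (hα : ∃ k : ℕ, p ^ k • α = 0)
    (hdeg : ∀ w, τ.deg w • ℓ.linv (τ.below w) α = 0)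
    (hrec : ∀ γ : groupCohomology τ.quot.M 2, infH2 ℓ.M τ.H γ = α → τ.quot.RecAt γ) :
    ℓ.RecAt α := by
  obtain ⟨γ, rfl⟩ := hE α (τ.res_eq_zero_of_hasseP hτ hH α hα hdeg)
  have h1 := hrec γ rfl
  unfold Layer.RecAt at *
  rw [← h1]
  exact finsum_congr fun v => hτ' v γ

end Tower

/-- The `S`-unit / `S`-idele data of a layer `ℓ = L'/L` (for a finite set `S` of places of `L`,
large enough): `U = O_{L',S}ˣ`, `J = (A_S L')ˣ`, `C = J/U`, `I = M/U`, and the local invariants
on `H²(G, J)`. -/
structure SData (ℓ : Layer Q) where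
  U : Rep.{0, 0, 0} ℤ ℓ.G
  J : Rep.{0, 0, 0} ℤ ℓ.G
  C : Rep.{0, 0, 0} ℤ ℓ.G
  I : Rep.{0, 0, 0} ℤ ℓ.G
  u : U ⟶ ℓ.M
  q : ℓ.M ⟶ I
  j : U ⟶ J
  π : J ⟶ C
  /-- the places in `S` -/
  S : Finset ℓ.V
  /-- the local invariants of a class of `S`-ideles -/
  jinv : ℓ.V → (groupCohomology J 2 →+ Q)

/-- The properties of the `S`-data supplied by package C5 (with C3): the two sequences
`0 → U → M → I → 0` and `0 → U → J → C → 0` are exact, and the two detection properties. -/
structure SData.Good {ℓ : Layer Q} (D : SData ℓ) : Prop where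
  uq : D.u ≫ D.q = 0
  exact_uq : (ShortComplex.mk D.u D.q uq).ShortExact
  jπ : D.j ≫ D.π = 0
  exact_jπ : (ShortComplex.mk D.j D.π jπ).ShortExact
  jinv_j : ∀ v ∈ D.S, ∀ β, D.jinv v (mapH2 D.j β) = ℓ.linv v (mapH2 D.u β)
  /-- a class of `S`-ideles with trivial local invariants is trivial (C5 + C3) -/
  detect : ∀ x : groupCohomology D.J 2, (∀ v ∈ D.S, D.jinv v x = 0) → x = 0
  /-- a class which is locally trivial outside `S` dies in `H²(G, M/U)` (C5) -/
  ideal : ∀ α : groupCohomology ℓ.M 2, (∀ v, v ∉ D.S → ℓ.linv v α = 0) → mapH2 D.q α = 0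

namespace SData

variable {ℓ : Layer Q}

/-- **Hasse principle** for a layer with good `S`-data and `H¹(G, C) = 0`. -/
theorem hasse (D : SData ℓ) (hD : D.Good) (h1 : Limits.IsZero (groupCohomology D.C 1)) :
    ℓ.Hasse := by
  intro α hα
  obtain ⟨β, rfl⟩ := exists_mapH2_eq hD.exact_uq α (hD.ideal α fun v _ => hα v)
  have h2 : mapH2 D.j β = 0 := hD.detect _ fun v hv => by rw [hD.jinv_j v hv, hα]
  rw [eq_zero_of_mapH2_eq_zero hD.exact_jπ h1 β h2, map_zero]

/-- The sum of the local invariants of a class of `S`-ideles. -/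
def sumInv (D : SData ℓ) : groupCohomology D.J 2 →+ Q := ∑ v ∈ D.S, D.jinv v

theorem sumInv_apply (D : SData ℓ) (x : groupCohomology D.J 2) :
    D.sumInv x = ∑ v ∈ D.S, D.jinv v x := by
  simp [sumInv]

/-- The classes of `S`-units are locally trivial outside `S` (C5 + C3: `H²` of the units of an
unramified local extension vanishes). -/
def UnitOutside (D : SData ℓ) : Prop :=
  ∀ v, v ∉ D.S → ∀ β : groupCohomology D.U 2, ℓ.linv v (mapH2 D.u β) = 0

/-- Reciprocity for the classes of `S`-units, as a sum over `S`. -/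
def UnitRec (D : SData ℓ) : Prop :=
  ∀ β : groupCohomology D.U 2, ∑ v ∈ D.S, ℓ.linv v (mapH2 D.u β) = 0

theorem unitRec_of_recAt (D : SData ℓ) (hout : D.UnitOutside)
    (hrec : ∀ β : groupCohomology D.U 2, ℓ.RecAt (mapH2 D.u β)) : D.UnitRec := by
  intro β
  have h := hrec β
  unfold Layer.RecAt at h
  rw [← h]
  exact (finsum_eq_sum_of_support_subset _ fun v hv => by
    by_contra hvS
    exact hv (hout v (by simpa using hvS) β)).symm

theorem sumInv_mapH2_j (D : SData ℓ) (hD : D.Good) (β : groupCohomology D.U 2) :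
    D.sumInv (mapH2 D.j β) = ∑ v ∈ D.S, ℓ.linv v (mapH2 D.u β) := by
  rw [sumInv_apply]
  exact Finset.sum_congr rfl fun v hv => hD.jinv_j v hv β

/-- **Exactness and surjectivity by counting.**  If reciprocity holds for the classes of
`S`-units, `#H²(G, C)` divides `n`, and some class of `S`-ideles has an invariant sum of order
`n > 0`, then: every class of `S`-ideles with invariant sum `0` comes from a class of `S`-units,
`H²(G, J) → H²(G, C)` is onto, and `#H²(G, C) = n`. -/
theorem exact_of_count (D : SData ℓ) (hD : D.Good) (hrec : D.UnitRec) (n : ℕ) (hn : 0 < n)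
    (hcard : Nat.card (groupCohomology D.C 2) ∣ n)
    (x₀ : groupCohomology D.J 2) (hx₀ : addOrderOf (D.sumInv x₀) = n) :
    (∀ x : groupCohomology D.J 2, D.sumInv x = 0 →
        ∃ β : groupCohomology D.U 2, mapH2 D.j β = x) ∧
      Function.Surjective (mapH2 D.π) ∧ Nat.card (groupCohomology D.C 2) = n := by
  have hle : (mapH2 D.π).ker ≤ D.sumInv.ker := by
    intro x hx
    obtain ⟨β, rfl⟩ := exists_mapH2_eq hD.exact_jπ x hx
    rw [AddMonoidHom.mem_ker, D.sumInv_mapH2_j hD, hrec β]
  obtain ⟨h1, h2, h3⟩ := count_core (mapH2 D.π) D.sumInv hle n hn hcard x₀ hx₀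
  refine ⟨fun x hx => ?_, h2, h3⟩
  have hx' : x ∈ (mapH2 D.π).ker := by rw [← h1]; exact hx
  exact exists_mapH2_eq hD.exact_jπ x hx'

/-- **Existence of global classes with prescribed local invariants** (consumer form): under the
hypotheses of `exact_of_count`, a class `x` of `S`-ideles with invariant sum `0` is the image of a
class `α = u_* β` of `H²(G, M)` with `linv v α = jinv v x` on `S` and `linv v α = 0` off `S`. -/
theorem exists_global_of_count (D : SData ℓ) (hD : D.Good) (hout : D.UnitOutside)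
    (hrec : D.UnitRec) (n : ℕ) (hn : 0 < n) (hcard : Nat.card (groupCohomology D.C 2) ∣ n)
    (x₀ : groupCohomology D.J 2) (hx₀ : addOrderOf (D.sumInv x₀) = n)
    (x : groupCohomology D.J 2) (hx : D.sumInv x = 0) :
    ∃ α : groupCohomology ℓ.M 2, (∀ v ∈ D.S, ℓ.linv v α = D.jinv v x) ∧
      ∀ v, v ∉ D.S → ℓ.linv v α = 0 := by
  obtain ⟨β, rfl⟩ := (D.exact_of_count hD hrec n hn hcard x₀ hx₀).1 x hx
  exact ⟨mapH2 D.u β, fun v hv => (hD.jinv_j v hv β).symm, fun v hv => hout v hv β⟩

end SData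

section Assembly

variable (𝒜 𝒜p : Layer Q → Prop) (𝒞 : (ℓ : Layer Q) → Set ℓ.V → Prop) (p : ℕ)

/-- **Export (HASSE).**  The Hasse principle for the `p`-primary classes of every layer of the
class `𝒜`. -/
def HassePStatement : Prop := ∀ ℓ : Layer Q, 𝒜 ℓ → ℓ.HasseP p

/-- **Export (REC).**  Reciprocity for every `p`-primary class of every layer of the class `𝒜`. -/
def RecStatement : Prop :=
  ∀ ℓ : Layer Q, 𝒜 ℓ → ∀ α : groupCohomology ℓ.M 2, (∃ k : ℕ, p ^ k • α = 0) → ℓ.RecAt α

/-- **Leaf (reduction to `p`-group layers over fields containing `μ_p`).**  Every layer `L'/L` of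
the class `𝒜` sits under a layer `L'(μ_p)/L` (injective inflation: Hilbert 90 + C1-c) which has
an intermediate field `E ⊇ L(μ_p)` with `L'(μ_p)/E` in the class `𝒜p` (`E` = the fixed field of
a Sylow `p`-subgroup; kernel of restriction killed by the index: C1-b). -/
def ReduceStatement : Prop :=
  ∀ ℓ : Layer Q, 𝒜 ℓ → ∃ (ℓ' : Layer Q) (I : Layer.Infl ℓ ℓ') (τ : SubTower ℓ'),
    I.Compat ∧ Function.Injective I.map ∧ τ.Compat ∧ τ.ResInjP p ∧ 𝒜p τ.sub

/-- **Leaf (good `S`-data with `H¹(G, C_S) = 0` for the layers of the class `𝒜p`)** — packages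
C5 (the data and `SData.Good`), C6 + C7 + C1-d (`H¹ = 0`). -/
def SDataStatement : Prop :=
  ∀ ℓ : Layer Q, 𝒜p ℓ → ∃ D : SData ℓ, D.Good ∧ Limits.IsZero (groupCohomology D.C 1)

/-- **Assembly of HASSE.** -/
theorem hasseP_of_leaves (hRed : ReduceStatement 𝒜 𝒜p p) (hS : SDataStatement 𝒜p) :
    HassePStatement 𝒜 p := by
  intro ℓ hℓ
  obtain ⟨ℓ', I, τ, hI, hinj, hτ, hres, hτp⟩ := hRed ℓ hℓ
  obtain ⟨D, hD, hD1⟩ := hS _ hτp
  exact I.hasseP hI hinj (τ.hasseP_of_sub hτ hres ((D.hasse hD hD1).hasseP p))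

/-- **Leaf (cyclic cyclotomic reciprocity).**  `𝒞 ℓ R` says: `ℓ = E/L` is a cyclic layer of
`p`-power degree inside `L(ζ_m)` and `R` contains the places of `L` dividing `m`.  Then reciprocity
holds for every class whose local invariants vanish on `R`. -/
def CycRecStatement : Prop :=
  ∀ (ℓ : Layer Q) (R : Set ℓ.V), 𝒞 ℓ R → ∀ γ : groupCohomology ℓ.M 2,
    (∀ v ∈ R, ℓ.linv v γ = 0) → ℓ.RecAt γ

/-- `α` is split by a cyclic cyclotomic layer `E/L` unramified at the support of `α`: there are
`L'' ⊇ L'`, an intermediate field `E` of `L''/L` with `L''/E` in the class `𝒜`, `E/L` in the class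
`𝒞` for a set `R` of places off the support of `α`, such that the local degrees of `E` kill the
local invariants of `α`. -/
def CycSplit (ℓ : Layer Q) (α : groupCohomology ℓ.M 2) : Prop :=
  ∃ (ℓ' : Layer Q) (I : Layer.Infl ℓ ℓ') (τ : Tower ℓ') (R : Set ℓ'.V),
    I.Compat ∧ τ.Compat ∧ τ.InfCompat ∧ 𝒜 τ.sub ∧ τ.InfResExact ∧ 𝒞 τ.quot R ∧
    (∀ w, τ.deg w • ℓ'.linv (τ.below w) (I.map α) = 0) ∧
    (∀ v ∈ R, ℓ'.linv v (I.map α) = 0)

/-- **Leaf (existence of the splitting layer).** -/
def CycSplitStatement : Prop :=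
  ∀ ℓ : Layer Q, 𝒜 ℓ → ∀ α : groupCohomology ℓ.M 2, (∃ k : ℕ, p ^ k • α = 0) → CycSplit 𝒜 𝒞 ℓ α

/-- **Assembly of REC.** -/
theorem rec_of_leaves (hHasse : HassePStatement 𝒜 p) (hCyc : CycRecStatement 𝒞)
    (hSplit : CycSplitStatement 𝒜 𝒞 p) : RecStatement 𝒜 p := by
  intro ℓ hℓ α hα
  obtain ⟨ℓ', I, τ, R, hI, hτ, hτ', hA, hE, hC, hdeg, hR⟩ := hSplit ℓ hℓ α hα
  obtain ⟨k, hk⟩ := hα
  have hα' : ∃ k : ℕ, p ^ k • I.map α = 0 := ⟨k, by rw [← map_nsmul, hk, map_zero]⟩
  refine I.recAt hI α (τ.recAt_of_split hτ hτ' (hHasse _ hA) hE _ hα' hdeg fun γ hγ => ?_)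
  refine hCyc τ.quot R hC γ fun v hv => ?_
  have h1 : ℓ'.linv v (infH2 ℓ'.M τ.H γ) = 0 := by rw [hγ]; exact hR v hv
  exact (hτ' v γ).symm.trans h1

end Assembly

end Fermat.Agent.S55.H29
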