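/-
S55 (Poitou–Tate), package C8 — helper29.  THE FOUR FINITE-LEVEL EXPORTS consumed by package C9b
(helper70, "from finite-level class field theory to `G_S`"), as `Prop`s over an abstract class
`𝒜` of layers (`Layer Q` of `C8Core`; in the application: the layers `K/F` of number fields
inside `ℚ_S`, `Q = ℚ/ℤ`, `linv v = inv_v ∘ loc_v`), for the `p`-primary parts:

* (B1) `HassePStatement 𝒜 p` (in `C8Core`)  : a `p`-primary class of `H²(G, Kˣ)` with all local
  invariants `0` is `0`;
* (B2) `RecStatement 𝒜 p` (in `C8Core`)     : the local invariants of a `p`-primary class add up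
  to `0`;
* (B3) `ExStatement 𝒜 p`                    : every finitely supported family of `p`-primary
  local invariants with sum `0` is the family of local invariants of a `p`-primary class of a
  bigger layer of the class (over the same base field);
* (B4) `H3Statement 𝒜 p`                    : every `p`-primary class of `H³(G, Kˣ)` dies after
  inflation to a bigger layer of the class.

(B1), (B2) are assembled in `C8Core` (`hasseP_of_leaves`, `rec_of_leaves`); (B3) is
`SData.exists_global_of_count` applied to the layers of the cyclotomic `ℤ_p`-extension; the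
group-theoretic cores of (B4) are `h3_core` (with `lift_of_towers` of `C8Fund`) and `h3_sylow`.
-/
import Fermat.Agent.S55.H29.C8Core

set_option autoImplicit false

open CategoryTheory groupCohomology Rep

noncomputable section

namespace Fermat.Agent.S55.H29

variable {Q : Type} [AddCommGroup Q]

/-- The inflation map of an `Infl` in degree `n`. -/
def Layer.Infl.mapN {ℓ ℓ' : Layer Q} (I : Layer.Infl ℓ ℓ') (n : ℕ) :
    groupCohomology ℓ.M n →+ groupCohomology ℓ'.M n :=
  (groupCohomology.map I.φ I.f n).hom.toAddMonoidHom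

variable (𝒜 : Layer Q → Prop) (p : ℕ)

/-- **Export (B3), existence.**  Every finitely supported family `t` of `p`-primary elements of
`Q` indexed by the places of the base field, with sum `0`, is the family of local invariants of a
`p`-primary class of a bigger layer of the class `𝒜`. -/
def ExStatement : Prop :=
  ∀ ℓ : Layer Q, 𝒜 ℓ → ∀ t : ℓ.V → Q, (Function.support t).Finite →
    (∀ v, ∃ k : ℕ, p ^ k • t v = 0) → ∑ᶠ v, t v = 0 →
    ∃ (ℓ' : Layer Q) (I : Layer.Infl ℓ ℓ'), 𝒜 ℓ' ∧ I.Compat ∧
      ∃ α : groupCohomology ℓ'.M 2, (∃ k : ℕ, p ^ k • α = 0) ∧ ∀ v, ℓ'.linv v α = t (I.σ v)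

/-- **Export (B4), `H³`.**  Every `p`-primary class of `H³(G, M)` of a layer of the class `𝒜`
dies after inflation to a bigger layer of the class. -/
def H3Statement : Prop :=
  ∀ ℓ : Layer Q, 𝒜 ℓ → ∀ x : groupCohomology ℓ.M 3, (∃ k : ℕ, p ^ k • x = 0) →
    ∃ (ℓ' : Layer Q) (I : Layer.Infl ℓ ℓ'), 𝒜 ℓ' ∧ I.Compat ∧ I.mapN 3 x = 0

/-- **`H³` chase (pure group theory).**  In the application `G = Gal(K''/F)`, `N = Gal(K''/K)`:
`X3 = H³(G/N, M^N)`, `XU = H³(G/N, U^N)`, `C2 = H²(G/N, C^N)`, and `Y3 = H³(G, M)`,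
`YU = H³(G, U)`, `A = H²(G, C)`, `Jb = H²(G, J)` for the big layer.  If every class of `X3` comes
from `XU` (because `H³(G/N, (M/U)^N) = 0`), every class of `XU` is a coboundary `δ c`
(because `H³(G/N, J^N) = 0`), inflation commutes with `u` and `δ`, and every inflated class of
`C2` lifts to `Jb` (LIFT), then inflation kills `X3`. -/
theorem h3_core {X3 XU C2 Y3 YU A Jb : Type*} [AddCommGroup X3] [AddCommGroup XU]
    [AddCommGroup C2] [AddCommGroup Y3] [AddCommGroup YU] [AddCommGroup A] [AddCommGroup Jb]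
    (u : XU →+ X3) (δ : C2 →+ XU) (infM : X3 →+ Y3) (infU : XU →+ YU) (infC : C2 →+ A)
    (uG : YU →+ Y3) (δG : A →+ YU) (πG : Jb →+ A)
    (hu : Function.Surjective u) (hδ : Function.Surjective δ)
    (h1 : ∀ xu, infM (u xu) = uG (infU xu)) (h2 : ∀ c, infU (δ c) = δG (infC c))
    (h3 : ∀ y, δG (πG y) = 0) (hlift : ∀ c, ∃ y, πG y = infC c) (x : X3) : infM x = 0 := by
  obtain ⟨xu, rfl⟩ := hu x
  obtain ⟨c, rfl⟩ := hδ xu
  obtain ⟨y, hy⟩ := hlift c
  rw [h1, h2, ← hy, h3, map_zero]

/-- **Sylow reduction for (B4) (pure group theory).**  `res` = restriction to a subgroup of index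
prime to `p` (kernel killed by an integer prime to `p`: C1-f), `inf`, `inf'` inflations to bigger
layers with `res' ∘ inf = inf' ∘ res`.  If `inf'` kills `res x` then `inf` kills the `p`-primary
class `x`. -/
theorem h3_sylow {X Y X' Y' : Type*} [AddCommGroup X] [AddCommGroup Y] [AddCommGroup X']
    [AddCommGroup Y'] (res : X →+ X') (inf : X →+ Y) (inf' : X' →+ Y') (res' : Y →+ Y')
    (hcomm : ∀ x, res' (inf x) = inf' (res x)) (p : ℕ)
    (hres' : ∀ y : Y, res' y = 0 → ∃ m : ℕ, m.Coprime p ∧ m • y = 0)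
    (x : X) (hx : ∃ k : ℕ, p ^ k • x = 0) (h : inf' (res x) = 0) : inf x = 0 := by
  obtain ⟨m, hm, hmy⟩ := hres' (inf x) (by rw [hcomm, h])
  obtain ⟨k, hk⟩ := hx
  have hk' : p ^ k • inf x = 0 := by rw [← map_nsmul, hk, map_zero]
  have h1 : addOrderOf (inf x) ∣ Nat.gcd m (p ^ k) :=
    Nat.dvd_gcd (addOrderOf_dvd_iff_nsmul_eq_zero.2 hmy) (addOrderOf_dvd_iff_nsmul_eq_zero.2 hk')
  rw [Nat.Coprime.pow_right k hm] at h1
  exact AddMonoid.addOrderOf_eq_one_iff.mp (Nat.dvd_one.mp h1)

end Fermat.Agent.S55.H29
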