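/-
S55 (Poitou–Tate), package C8 — helper29.  The cohomological core of export (B4)
(`H³(G, Kˣ)` dies after inflation), model-independent, sorry-free.

* `delta_inf` : the connecting homomorphisms of a short exact sequence of `G`-representations and
  of its sequence of `N`-invariants (when it is still short exact) commute with inflation.
* `h3_of_lift` : for `0 → U → M → I → 0` and `0 → U → J → C → 0` (short exact, also on
  `N`-invariants), if `H³(G/N, M^N) → H³(G/N, I^N)` and `H³(G/N, U^N) → H³(G/N, J^N)` are zero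
  and every class of `H²(G/N, C^N)` inflates into the image of `H²(G, J)` (LIFT), then the
  inflation `H³(G/N, M^N) → H³(G, M)` is zero.
-/
import Fermat.Agent.S55.H29.C8Export

set_option autoImplicit false

open CategoryTheory groupCohomology Rep

noncomputable section

namespace Fermat.Agent.S55.H29

section Generic

variable {k G : Type} [CommRing k] [Group G]

instance quotientToInvariantsFunctor_preservesZero (N : Subgroup G) [N.Normal] :
    (quotientToInvariantsFunctor (k := k) N).PreservesZeroMorphisms where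
  map_zero X Y := by
    ext x
    rfl

/-- The inflation morphism between the short complexes of cochain complexes of the `N`-invariants
of `X` and of `X`. -/
def infShortComplexHom (N : Subgroup G) [N.Normal] (X : ShortComplex (Rep.{0, 0, 0} k G)) :
    ((X.map (quotientToInvariantsFunctor k N)).map (cochainsFunctor k (G ⧸ N))) ⟶
      X.map (cochainsFunctor k G) where
  τ₁ := cochainsMap (QuotientGroup.mk' N) (ofHom <| X.X₁.ρ.quotientToInvariants_lift N)
  τ₂ := cochainsMap (QuotientGroup.mk' N) (ofHom <| X.X₂.ρ.quotientToInvariants_lift N)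
  τ₃ := cochainsMap (QuotientGroup.mk' N) (ofHom <| X.X₃.ρ.quotientToInvariants_lift N)
  comm₁₂ := rfl
  comm₂₃ := rfl

/-- **Connecting homomorphisms commute with inflation.** -/
theorem delta_inf (N : Subgroup G) [N.Normal] (X : ShortComplex (Rep.{0, 0, 0} k G))
    (hX : X.ShortExact) (hXN : (X.map (quotientToInvariantsFunctor k N)).ShortExact)
    (i j : ℕ) (hij : i + 1 = j) :
    δ hXN i j hij ≫ (infNatTrans k N j).app X.X₁ = (infNatTrans k N i).app X.X₃ ≫ δ hX i j hij :=
  HomologicalComplex.HomologySequence.δ_naturality (infShortComplexHom N X)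
    (map_cochainsFunctor_shortExact hXN) (map_cochainsFunctor_shortExact hX) i j hij

/-- The map `Hⁿ(G, A) → Hⁿ(G, B)` induced by a morphism of representations. -/
def mapHn (n : ℕ) {A B : Rep.{0, 0, 0} k G} (f : A ⟶ B) :
    groupCohomology A n →+ groupCohomology B n :=
  ((functor k G n).map f).hom.toAddMonoidHom

/-- Inflation `Hⁿ(G ⧸ N, A^N) → Hⁿ(G, A)` as an additive map. -/
def infHn (n : ℕ) (A : Rep.{0, 0, 0} k G) (N : Subgroup G) [N.Normal] :
    groupCohomology (A.quotientToInvariants N) n →+ groupCohomology A n :=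
  ((infNatTrans k N n).app A).hom.toAddMonoidHom

/-- Naturality of inflation in degree `n`. -/
theorem infHn_mapHn (n : ℕ) {A B : Rep.{0, 0, 0} k G} (f : A ⟶ B) (N : Subgroup G) [N.Normal]
    (c : groupCohomology (A.quotientToInvariants N) n) :
    infHn n B N (mapHn n ((quotientToInvariantsFunctor k N).map f) c) = mapHn n f (infHn n A N c) := by
  have h := (infNatTrans k N n).naturality f
  exact congrArg (fun g => g.hom c) h

end Generic

variable {G : Type} [Group G]

/-- **(B4), cohomological form.**  See the file header.  (`infHn 2 C N = infH2 C N` and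
`mapHn 2 π = mapH2 π` definitionally.) -/
theorem h3_of_lift (N : Subgroup G) [N.Normal] {U M I J C : Rep.{0, 0, 0} ℤ G}
    (u : U ⟶ M) (q : M ⟶ I) (j : U ⟶ J) (π : J ⟶ C) (uq : u ≫ q = 0) (jπ : j ≫ π = 0)
    (hjπ : (ShortComplex.mk j π jπ).ShortExact)
    (huqN : ((ShortComplex.mk u q uq).map (quotientToInvariantsFunctor ℤ N)).ShortExact)
    (hjπN : ((ShortComplex.mk j π jπ).map (quotientToInvariantsFunctor ℤ N)).ShortExact)
    (hI3 : ∀ x : groupCohomology (M.quotientToInvariants N) 3,
      mapHn 3 ((quotientToInvariantsFunctor ℤ N).map q) x = 0)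
    (hJ3 : ∀ xu : groupCohomology (U.quotientToInvariants N) 3,
      mapHn 3 ((quotientToInvariantsFunctor ℤ N).map j) xu = 0)
    (hlift : ∀ c : groupCohomology (C.quotientToInvariants N) 2,
      ∃ y : groupCohomology J 2, mapHn 2 π y = infHn 2 C N c)
    (x : groupCohomology (M.quotientToInvariants N) 3) : infHn 3 M N x = 0 := by
  -- `x` comes from `H³(G/N, U^N)`
  obtain ⟨xu, rfl⟩ : ∃ xu : groupCohomology (U.quotientToInvariants N) 3,
      mapHn 3 ((quotientToInvariantsFunctor ℤ N).map u) xu = x :=
    (ShortComplex.moduleCat_exact_iff _).1 (mapShortComplex₂_exact huqN 3) x (hI3 x)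
  -- `xu` is a coboundary `δ c`
  obtain ⟨c, rfl⟩ : ∃ c : groupCohomology (C.quotientToInvariants N) 2,
      (δ hjπN 2 3 rfl).hom c = xu :=
    (ShortComplex.moduleCat_exact_iff _).1 (mapShortComplex₁_exact hjπN (i := 2) (j := 3) rfl)
      xu (hJ3 xu)
  obtain ⟨y, hy⟩ := hlift c
  have h1 := infHn_mapHn 3 u N ((δ hjπN 2 3 rfl).hom c)
  have h2 : infHn 3 U N ((δ hjπN 2 3 rfl).hom c) = (δ hjπ 2 3 rfl).hom (infHn 2 C N c) :=
    congrArg (fun g => g.hom c) (delta_inf N (ShortComplex.mk j π jπ) hjπ hjπN 2 3 rfl)
  have h3 : (δ hjπ 2 3 rfl).hom (mapHn 2 π y) = 0 :=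
    congrArg (fun g => g.hom y) (mapShortComplex₃ hjπ (i := 2) (j := 3) rfl).zero
  have h4 : (δ hjπ 2 3 rfl).hom (infHn 2 C N c) = 0 :=
    (congrArg (fun z => (δ hjπ 2 3 rfl).hom z) hy.symm).trans h3
  exact h1.trans ((congrArg (mapHn 3 u) (h2.trans h4)).trans (map_zero _))

end Fermat.Agent.S55.H29
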