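/-
S55 (Poitou–Tate), package C8 — helper29.  SPEC v2, part 1: the Hasse principle (export B1) in
the concrete model (`H88.layerOf`), by the HASSE NORM THEOREM route.  No idele cohomology.

Chain:
* `PrimeHasseStatement p` : Hasse principle for the layers `K/k` of degree `p` with `μ_p ⊆ k`
  (Kummer layers).  Proof of the leaf: every class is `cycClass σ a`, `a ∈ kˣ` (CY2); local
  invariant `0` at `v` ⟹ `a` is a local norm at `v` (`CycLocStatement`: CY6 + CY3 + injectivity
  of `H66.inv`); `a` is a local norm everywhere ⟹ `a` is a norm (`HasseNormStatement`: C6 + C7,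
  by counting, `H8.hasse_norm_of_counts`); then `cycClass σ a = 0` (CY3).
* `Tower.hasse_of` (proved here) : the Hasse principle passes from `K/E` and `E/k` to `K/k`;
  with `SubCompatStatement`, `QuotInfCompatStatement`, `TowerInfResStatement` and the two
  change-of-presentation leaves this gives `PGroupHasseStatement p` by induction on the degree.
* reduction of a general layer to `K(ζ_p)/k` and to the fixed field of a Sylow `p`-subgroup:
  `InflCompatStatement`, `InflInjStatement`, `SubResInjStatement`; conclusion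
  `HassePStatement NFLayer p`.
-/
import Fermat.Agent.S55.H29.C8H3
import Fermat.Agent.S55.H88.TowerData
import Fermat.Agent.S55.H8.KummerModel

set_option autoImplicit false

open CategoryTheory groupCohomology Rep

noncomputable section

namespace Fermat.Agent.S55.H29

open Fermat.Agent.S55.H88 Fermat.Agent.S55.H66

/-- **Tower step for the Hasse principle.**  If the Hasse principle holds for `L'/E` and for
`E/L`, then it holds for `L'/L`. -/
theorem Tower.hasse_of {Q : Type} [AddCommGroup Q] {ℓ : Layer Q} (τ : Tower ℓ) (hτ : τ.Compat)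
    (hτ' : τ.InfCompat) (hE : τ.InfResExact) (hsub : τ.sub.Hasse) (hquot : τ.quot.Hasse) :
    ℓ.Hasse := by
  intro α hα
  have h0 : resH2 ℓ.M τ.H α = 0 := hsub _ fun w => by
    show τ.linvSub w (resH2 ℓ.M τ.H α) = 0
    rw [hτ w α, hα, smul_zero]
  obtain ⟨γ, rfl⟩ := hE α h0
  have h1 : γ = 0 := hquot γ fun v => by
    show τ.linvQuot v γ = 0
    rw [← hτ' v γ, hα]
  rw [h1, map_zero]

/-- The class `𝒜` of all finite Galois layers of number fields. -/
def NFLayer (ℓ : Layer QZ) : Prop :=
  ∃ (k K : Type) (_ : Field k) (_ : NumberField k) (_ : Field K) (_ : NumberField K)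
    (_ : Algebra k K) (_ : IsGalois k K), ℓ = layerOf k K

/-- An element of `kˣ` as an (invariant) element of the Galois module `Kˣ`. -/
def unitOfBase (k K : Type) [Field k] [Field K] [Algebra k K] (a : kˣ) :
    Rep.ofAlgebraAutOnUnits k K :=
  Rep.toAdditive.symm (Additive.ofMul (Units.map (algebraMap k K : k →* K) a))

attribute [local instance] factOfPrimes

/-! ### Prime (Kummer) layers -/

/-- **Leaf (HNT) — the Hasse norm theorem for Kummer layers of degree `p`** (packages C6 + C7):
an element of `kˣ` which is a local norm from `k(g^{1/p})` at every finite place is a norm. -/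
def HasseNormStatement : Prop :=
  ∀ (k : Type) [Field k] [NumberField k] (p : ℕ), p.Prime → p ≠ 2 →
    ∀ ζ : k, IsPrimitiveRoot ζ p → ∀ g : kˣ, g ∉ H8.pPow p kˣ → ∀ a : kˣ,
      (∀ v : FinPlace k, finLoc k v a ∈ H8.finNloc k p g v) → a ∈ H8.kummerNormGroup p (g : k)

/-- **Leaf (CYC-LOC)** : if the local invariant at `v` of the cyclic class of `a ∈ kˣ` in the
Kummer layer `K = k(β)`, `β ^ p = g`, vanishes, then `a` is a local norm at `v`
(C3: CY6, CY3, injectivity of `inv`; `K_w = k_v(β)`). -/
def CycLocStatement : Prop :=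
  ∀ (k K : Type) [Field k] [NumberField k] [Field K] [NumberField K] [Algebra k K]
    [IsGalois k K] (p : ℕ), p.Prime → p ≠ 2 → Module.finrank k K = p →
    ∀ ζ : k, IsPrimitiveRoot ζ p → ∀ g : kˣ, g ∉ H8.pPow p kˣ →
    ∀ β : K, β ^ p = algebraMap k K g →
    ∀ σ : K ≃ₐ[k] K, (∀ τ : K ≃ₐ[k] K, τ ∈ Subgroup.zpowers σ) → ∀ (a : kˣ) (v : FinPlace k),
      (layerOf k K).linv v (cycClass (Rep.ofAlgebraAutOnUnits k K) σ (unitOfBase k K a)) = 0 →
        finLoc k v a ∈ H8.finNloc k p g v

/-- **Leaf (CYC-GLOB)** : a norm from the Kummer algebra `k[X]/(X^p - g)` is a norm from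
`K = k(β)`, `β ^ p = g`, in the module-theoretic form used by CY3. -/
def CycGlobStatement : Prop :=
  ∀ (k K : Type) [Field k] [NumberField k] [Field K] [NumberField K] [Algebra k K]
    [IsGalois k K] (p : ℕ), p.Prime → Module.finrank k K = p →
    ∀ g : kˣ, g ∉ H8.pPow p kˣ → ∀ β : K, β ^ p = algebraMap k K g →
    ∀ a : kˣ, a ∈ H8.kummerNormGroup p (g : k) →
      ∃ b : Rep.ofAlgebraAutOnUnits k K,
        ∑ᶠ s : K ≃ₐ[k] K, (Rep.ofAlgebraAutOnUnits k K).ρ s b = unitOfBase k K a

/-- **Hasse principle for Kummer layers of degree `p`, `p` odd** (from HNT, CYC-LOC, CYC-GLOB,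
CY2, CY3 and Kummer theory: a cyclic layer of degree `p` over `k ∋ ζ_p` is `k(β)`, `β ^ p ∈ k`).
Only the finite places are used, so `p ≠ 2` is necessary. -/
def PrimeHasseStatement (p : ℕ) : Prop :=
  p.Prime → p ≠ 2 →
  ∀ (k K : Type) [Field k] [NumberField k] [Field K] [NumberField K] [Algebra k K]
    [IsGalois k K], (∃ ζ : k, IsPrimitiveRoot ζ p) → Module.finrank k K = p → (layerOf k K).Hasse

/-! ### Towers -/

/-- **Leaf (SUB-COMPAT)** : restriction to `Gal(K/E)` multiplies the local invariants by the
local degrees (C3 `LeafInvRes` + LINV-INDEP + functoriality). -/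
def SubCompatStatement : Prop :=
  ∀ (k E K : Type) [Field k] [NumberField k] [Field E] [NumberField E] [Field K] [NumberField K]
    [Algebra k E] [Algebra E K] [Algebra k K] [IsScalarTower k E K] [IsGalois k K],
    (subTowerOf k E K).Compat

/-- **Leaf (QUOT-COMPAT)** : inflation from `E/k` to `K/k` preserves the local invariants
(C3 `LeafInvInfl` + LINV-INDEP + functoriality). -/
def QuotInfCompatStatement : Prop :=
  ∀ (k E K : Type) [Field k] [NumberField k] [Field E] [NumberField E] [Field K] [NumberField K]
    [Algebra k E] [Algebra E K] [Algebra k K] [IsScalarTower k E K] [IsGalois k E] [IsGalois k K]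
    [FiniteDimensional k K], (towerOf k E K).InfCompat

/-- **Leaf (TOWER-INFRES)** : exactness of `H²(Gal(E/k), Eˣ) → H²(Gal(K/k), Kˣ) → H²(Gal(K/E), Kˣ)`
(C1-c `H84.H2InfRes_exact_apply` + Hilbert 90 for `K/E`). -/
def TowerInfResStatement : Prop :=
  ∀ (k E K : Type) [Field k] [NumberField k] [Field E] [NumberField E] [Field K] [NumberField K]
    [Algebra k E] [Algebra E K] [Algebra k K] [IsScalarTower k E K] [IsGalois k E] [IsGalois k K]
    [FiniteDimensional k K], (towerOf k E K).InfResExact

/-- **Leaf (SUB-PRES)** : the change of presentation `H²(Gal(K/E) ≤ Gal(K/k), Kˣ) → H²(Gal(K/E), Kˣ)`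
is injective (it is an isomorphism). -/
def SubH2InjStatement : Prop :=
  ∀ (k E K : Type) [Field k] [NumberField k] [Field E] [NumberField E] [Field K] [NumberField K]
    [Algebra k E] [Algebra E K] [Algebra k K] [IsScalarTower k E K] [IsGalois k K],
    Function.Injective (subH2 k E K)

/-- **Leaf (QUOT-PRES)** : the change of presentation
`H²(Gal(K/k) ⧸ Gal(K/E), (Kˣ)^{Gal(K/E)}) → H²(Gal(E/k), Eˣ)` is injective (an isomorphism). -/
def QuotH2InjStatement : Prop :=
  ∀ (k E K : Type) [Field k] [NumberField k] [Field E] [NumberField E] [Field K] [NumberField K]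
    [Algebra k E] [Algebra E K] [Algebra k K] [IsScalarTower k E K] [IsGalois k E] [IsGalois k K]
    [FiniteDimensional k K], Function.Injective (quotH2 k E K)

/-- **Hasse principle for `p`-group layers over fields containing `μ_p`** (induction on the
degree from `PrimeHasseStatement`, `Tower.hasse_of` and the tower leaves; `E` = the fixed field
of a central subgroup of order `p`). -/
def PGroupHasseStatement (p : ℕ) : Prop :=
  p.Prime → p ≠ 2 →
  ∀ (k K : Type) [Field k] [NumberField k] [Field K] [NumberField K] [Algebra k K]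
    [IsGalois k K], (∃ ζ : k, IsPrimitiveRoot ζ p) → (∃ n : ℕ, Module.finrank k K = p ^ n) →
    (layerOf k K).Hasse

/-! ### Reduction of a general layer -/

/-- **Leaf (INFL-COMPAT)** : inflation from `K/k` to `K'/k` preserves the local invariants. -/
def InflCompatStatement : Prop :=
  ∀ (k K K' : Type) [Field k] [NumberField k] [Field K] [NumberField K] [Field K']
    [NumberField K'] [Algebra k K] [Algebra k K'] [Algebra K K'] [IsScalarTower k K K']
    [IsGalois k K] [IsGalois k K'], (inflOf k K K').Compat

/-- **Leaf (INFL-INJ)** : inflation `H²(Gal(K/k), Kˣ) → H²(Gal(K'/k), K'ˣ)` is injective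
(C1-c `H84.H2InfRes_f_injective` + Hilbert 90 for `K'/K` + QUOT-PRES). -/
def InflInjStatement : Prop :=
  ∀ (k K K' : Type) [Field k] [NumberField k] [Field K] [NumberField K] [Field K']
    [NumberField K'] [Algebra k K] [Algebra k K'] [Algebra K K'] [IsScalarTower k K K']
    [IsGalois k K] [IsGalois k K'], Function.Injective (inflOf k K K').map

/-- **Leaf (SUB-RESINJ)** : if `p ∤ [E : k]`, the kernel of the restriction to `Gal(K/E)` is
killed by an integer prime to `p` (C1-b `H80.index_smul_eq_zero_of_res_eq_zero`). -/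
def SubResInjStatement : Prop :=
  ∀ (k E K : Type) [Field k] [NumberField k] [Field E] [NumberField E] [Field K] [NumberField K]
    [Algebra k E] [Algebra E K] [Algebra k K] [IsScalarTower k E K] [IsGalois k K] (p : ℕ),
    p.Prime → ¬ p ∣ Module.finrank k E → (subTowerOf k E K).ResInjP p

end Fermat.Agent.S55.H29
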