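/-
S55 (Poitou–Tate), package C8 — helper29.  SPEC v2, part 2: EXISTENCE of classes with prescribed
local invariants (export B3), without idele cohomology.

* `ex_of_secondIneq` (proved) : the counting core for a Kummer layer of degree `p`, in the
  idele-system language of `H8`: local symbols + reciprocity + second inequality ⟹ existence.
* `Layer.Ex`, `Tower.ex_of` (proved) : existence passes from `L'/E` and `E/L` to `L'/L` when every
  class of `L'/E` with "constant" invariants is a restriction (cyclic case: `CyclicResLift`).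
* leaf `Prop`s in the concrete model: `KummerLocalSymbolStatement`, `UnitNormStatement`,
  `FullPlaceStatement`, `PrimeExStatement`, the bookkeeping of local degrees in towers,
  `CyclicResLiftStatement`, and the export `CyclicExStatement p` (= B3 in consumer form).
-/
import Fermat.Agent.S55.H29.C8Hasse

set_option autoImplicit false

open CategoryTheory groupCohomology Rep

noncomputable section

namespace Fermat.Agent.S55.H29

open Fermat.Agent.S55.H8

/-- **Existence by counting (abstract, in the idele-system language of `H8`).**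
`lam v : X v → Q` local symbols killing the local norm groups `Nl v` and almost all unit groups,
whose sum kills the principal ideles (reciprocity); if the norm index
`(J : G · NmLoc)` divides the prime `p` (second inequality) and some local symbol is nontrivial,
then every finitely supported family `t v ∈ lam v (X v)` with sum `0` is the family of symbols of
a global element. -/
theorem ex_of_secondIneq {G : Type*} [CommGroup G] {V : Type*} {X : V → Type*}
    [∀ v, CommGroup (X v)] {Q : Type*} [AddCommGroup Q]
    (U : ∀ v, Subgroup (X v)) (loc : ∀ v, G →* X v) (Nl : ∀ v, Subgroup (X v))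
    (lam : ∀ v, X v →* Multiplicative Q) (p : ℕ) (hp : p.Prime)
    (hN : ∀ v, Nl v ≤ (lam v).ker)
    (hU : {v | ¬ U v ≤ (lam v).ker}.Finite)
    (hrec : ∀ g : G, ∑ᶠ v, Multiplicative.toAdd (lam v (loc v g)) = 0)
    (hSI : (principal loc ⊔ NmLoc U Nl).relIndex (resProd U) ∣ p)
    (v₀ : V) (y₀ : X v₀) (hy₀ : lam v₀ y₀ ≠ 1)
    (t : V → Q) (ht : (Function.support t).Finite)
    (hsurj : ∀ v, ∃ y : X v, lam v y = Multiplicative.ofAdd (t v)) (hsum : ∑ᶠ v, t v = 0) :
    ∃ g : G, ∀ v, Multiplicative.toAdd (lam v (loc v g)) = t v := by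
  classical
  -- the symbol sum on the ideles
  have hfin : ∀ x : ∀ v, X v, x ∈ resProd U →
      (Function.support fun v => Multiplicative.toAdd (lam v (x v))).Finite := by
    intro x hx
    refine (hx.union hU).subset ?_
    intro v hv
    by_contra h
    simp only [Set.mem_union, Set.mem_ofPred_eq, not_or, not_not] at h
    exact hv (congrArg Multiplicative.toAdd ((MonoidHom.mem_ker).1 (h.2 h.1)))
  let s : ↥(resProd U) →* Multiplicative Q :=
    { toFun := fun x => Multiplicative.ofAdd (∑ᶠ v, Multiplicative.toAdd (lam v (x.1 v)))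
      map_one' := by
        show Multiplicative.ofAdd (∑ᶠ v, Multiplicative.toAdd (lam v 1)) = 1
        simp
      map_mul' := fun x y => by
        show Multiplicative.ofAdd (∑ᶠ v, Multiplicative.toAdd (lam v (x.1 v * y.1 v))) =
          Multiplicative.ofAdd (∑ᶠ v, Multiplicative.toAdd (lam v (x.1 v))) *
            Multiplicative.ofAdd (∑ᶠ v, Multiplicative.toAdd (lam v (y.1 v)))
        rw [← ofAdd_add, ← finsum_add_distrib (hfin x.1 x.2) (hfin y.1 y.2)]
        congr 1
        refine finsum_congr fun v => ?_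
        rw [map_mul, toAdd_mul] }
  have hs : ∀ x : ↥(resProd U), s x = Multiplicative.ofAdd
      (∑ᶠ v, Multiplicative.toAdd (lam v (x.1 v))) := fun x => rfl
  set H : Subgroup ↥(resProd U) := (principal loc ⊔ NmLoc U Nl).subgroupOf (resProd U) with hH
  -- `H ≤ ker s`
  have hHK : H ≤ s.ker := by
    intro x hx
    rw [hH, Subgroup.mem_subgroupOf] at hx
    obtain ⟨d, hd, n, hn, hdn⟩ := Subgroup.mem_sup.1 hx
    obtain ⟨g, rfl⟩ := hd
    have h0 : (∑ᶠ v, Multiplicative.toAdd (lam v (x.1 v))) = 0 := by
      rw [← hrec g]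
      refine finsum_congr fun v => ?_
      have h1 : x.1 v = loc v g * n v := by rw [← hdn]; rfl
      have h2 : lam v (n v) = 1 := (MonoidHom.mem_ker).1 (hN v ((mem_NmLoc.1 hn).2 v))
      rw [h1, map_mul, h2, mul_one]
    rw [MonoidHom.mem_ker, hs, h0]
    rfl
  -- `ker s ≠ ⊤`
  have hx₀ : Pi.mulSingle v₀ y₀ ∈ resProd U := by
    refine (Set.finite_singleton v₀).subset ?_
    intro v hv
    by_contra h
    have : v ≠ v₀ := h
    apply hv
    rw [Pi.mulSingle_eq_of_ne this]
    exact (U v).one_mem
  have hsx₀ : s ⟨Pi.mulSingle v₀ y₀, hx₀⟩ ≠ 1 := by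
    rw [hs]
    have h1 : (∑ᶠ v, Multiplicative.toAdd (lam v ((Pi.mulSingle v₀ y₀ : ∀ v, X v) v)))
        = Multiplicative.toAdd (lam v₀ y₀) := by
      rw [finsum_eq_single _ v₀]
      · rw [Pi.mulSingle_eq_same]
      · intro v hv
        rw [Pi.mulSingle_eq_of_ne hv, map_one]
        rfl
    rw [h1]
    exact hy₀
  have hKtop : s.ker ≠ ⊤ := by
    intro h
    exact hsx₀ ((MonoidHom.mem_ker).1 (h ▸ Subgroup.mem_top _))
  -- index count
  have hHidx : H.index ∣ p := hSI
  have hKH : s.ker.index ∣ H.index := Subgroup.index_dvd_of_le hHK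
  have hK1 : s.ker.index ≠ 1 := fun h => hKtop (Subgroup.index_eq_one.1 h)
  have hKp : s.ker.index = p := by
    rcases (Nat.dvd_prime hp).1 (hKH.trans hHidx) with h | h
    · exact absurd h hK1
    · exact h
  have hHp : H.index = p := by
    rcases (Nat.dvd_prime hp).1 hHidx with h | h
    · rw [h] at hKH
      exact absurd (Nat.dvd_one.1 hKH) hK1
    · exact h
  have hrel : H.relIndex s.ker = 1 := by
    have h1 := Subgroup.relIndex_mul_index hHK
    rw [hKp, hHp] at h1
    exact Nat.eq_of_mul_eq_mul_right hp.pos (by rw [h1, one_mul])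
  have hKleH : s.ker ≤ H := Subgroup.relIndex_eq_one.1 hrel
  -- the idele with the prescribed symbols
  choose y hy using hsurj
  let x : ∀ v, X v := fun v => if t v = 0 then 1 else y v
  have hxv : ∀ v, lam v (x v) = Multiplicative.ofAdd (t v) := by
    intro v
    by_cases h : t v = 0
    · simp only [x, if_pos h, map_one, h]
      rfl
    · simp only [x, if_neg h]
      exact hy v
  have hxres : x ∈ resProd U := by
    refine ht.subset ?_
    intro v hv
    by_contra h
    have h0 : t v = 0 := by simpa using h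
    apply hv
    simp only [x, if_pos h0]
    exact (U v).one_mem
  have hsx : (⟨x, hxres⟩ : ↥(resProd U)) ∈ s.ker := by
    rw [MonoidHom.mem_ker, hs]
    have : (∑ᶠ v, Multiplicative.toAdd (lam v (x v))) = ∑ᶠ v, t v :=
      finsum_congr fun v => by rw [hxv v]; rfl
    show Multiplicative.ofAdd (∑ᶠ v, Multiplicative.toAdd (lam v (x v))) = 1
    rw [this, hsum]
    rfl
  have hxH := hKleH hsx
  rw [hH, Subgroup.mem_subgroupOf] at hxH
  obtain ⟨d, hd, n, hn, hdn⟩ := Subgroup.mem_sup.1 hxH
  obtain ⟨g, rfl⟩ := hd
  refine ⟨g, fun v => ?_⟩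
  have h1 : x v = loc v g * n v := by
    have := congrFun hdn v
    exact this.symm
  have h2 : lam v (n v) = 1 := (MonoidHom.mem_ker).1 (hN v ((mem_NmLoc.1 hn).2 v))
  have h3 : lam v (loc v g) = Multiplicative.ofAdd (t v) := by
    rw [← hxv v, h1, map_mul, h2, mul_one]
  rw [h3]
  rfl


open Fermat.Agent.S55.H88 Fermat.Agent.S55.H66

/-- **Existence** for a layer with local degrees `d`: every finitely supported family `t` with
`d v • t v = 0` and sum `0` is the family of local invariants of a class. -/
def Layer.Ex {Q : Type} [AddCommGroup Q] (ℓ : Layer Q) (d : ℓ.V → ℕ) : Prop :=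
  ∀ t : ℓ.V → Q, (Function.support t).Finite → (∀ v, d v • t v = 0) → ∑ᶠ v, t v = 0 →
    ∃ α : groupCohomology ℓ.M 2, ∀ v, ℓ.linv v α = t v

/-- **Tower step for existence.**  `d`, `dq`, `ds` are the local degrees of `L'/L`, `E/L`,
`L'/E`; `hlift` says that a class of `L'/E` whose invariants are `deg w • t (below w)` is the
restriction of a class of `L'/L`. -/
theorem Tower.ex_of {Q : Type} [AddCommGroup Q] {ℓ : Layer Q} (τ : Tower ℓ) (hτ : τ.Compat)
    (hτ' : τ.InfCompat) (d dq : ℓ.V → ℕ) (ds : τ.W → ℕ)
    (hmul : ∀ w, d (τ.below w) = τ.deg w * ds w)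
    (hq : ∀ w, dq (τ.below w) = τ.deg w)
    (hsurj : Function.Surjective τ.below)
    (hfib : ∀ v, {w | τ.below w = v}.Finite)
    (N : ℕ) (hsum : ∀ t : ℓ.V → Q, (Function.support t).Finite →
      ∑ᶠ w, τ.deg w • t (τ.below w) = N • ∑ᶠ v, t v)
    (hrec : ∀ α : groupCohomology ℓ.M 2, ℓ.RecAt α)
    (hfin : ∀ α : groupCohomology ℓ.M 2, (Function.support fun v => ℓ.linv v α).Finite)
    (hlift : ∀ (β : groupCohomology τ.sub.M 2) (t : ℓ.V → Q),
      (∀ w, τ.linvSub w β = τ.deg w • t (τ.below w)) → ∃ α, resH2 ℓ.M τ.H α = β)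
    (exSub : τ.sub.Ex ds) (exQuot : τ.quot.Ex dq) : ℓ.Ex d := by
  intro t ht hadm hsum0
  -- the family on the places of `E`
  have ht' : (Function.support fun w => τ.deg w • t (τ.below w)).Finite := by
    refine (Set.Finite.biUnion ht fun v _ => hfib v).subset ?_
    intro w hw
    have h0 : t (τ.below w) ≠ 0 := fun h => hw (by simp [h])
    exact Set.mem_biUnion (Function.mem_support.2 h0) rfl
  have h1 : ∀ w, ds w • (τ.deg w • t (τ.below w)) = 0 := by
    intro w
    rw [← mul_smul, mul_comm, ← hmul]
    exact hadm _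
  have h2 : ∑ᶠ w, τ.deg w • t (τ.below w) = 0 := by rw [hsum t ht, hsum0, smul_zero]
  obtain ⟨β, hβ⟩ := exSub _ ht' h1 h2
  obtain ⟨α₁, hα₁⟩ := hlift β t hβ
  -- the correction on the places of `L`
  have ht'' : (Function.support fun v => t v - ℓ.linv v α₁).Finite := by
    refine (ht.union (hfin α₁)).subset ?_
    intro v hv
    by_contra h
    simp only [Set.mem_union, Function.mem_support, not_or, not_not] at h
    exact hv (by simp [h.1, h.2])
  have h3 : ∀ v, dq v • (t v - ℓ.linv v α₁) = 0 := by
    intro v
    obtain ⟨w, rfl⟩ := hsurj v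
    rw [hq w, smul_sub, ← hτ w α₁, hα₁]
    have := hβ w
    rw [show τ.sub.linv w β = τ.linvSub w β from rfl] at this
    rw [this, sub_self]
  have h4 : ∑ᶠ v, (t v - ℓ.linv v α₁) = 0 := by
    rw [finsum_sub_distrib ht (hfin α₁), hsum0, zero_sub, neg_eq_zero]
    exact hrec α₁
  obtain ⟨γ, hγ⟩ := exQuot _ ht'' h3 h4
  refine ⟨α₁ + infH2 ℓ.M τ.H γ, fun v => ?_⟩
  have h5 : τ.linvQuot v γ = t v - ℓ.linv v α₁ := hγ v
  rw [map_add, hτ' v γ, h5]
  abel

attribute [local instance] factOfPrimes

/-- The local degree `[K_w : k_v]` of the layer `K / k` at the chosen place above `v`. -/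
def locDegAt (k K : Type) [Field k] [Field K] [Algebra k K] [Normal k K] (v : FinPlace k) : ℕ :=
  Module.finrank (locBase (v.1 : ℕ) k (v.ext K)) (locExt (v.1 : ℕ) k (v.ext K))

/-! ### Kummer layers of degree `p` -/

/-- **Leaf (LOCSYM) — local symbols of a Kummer layer.**  For `K = k(β)`, `β ^ p = g`, with
generator `σ`, and a finite place `v` of `k` there is a homomorphism `lam : k_vˣ → ℚ/ℤ` with
(a) `lam (a) = linv v (cycClass σ a)` for `a ∈ kˣ`, (b) every element killed by the local degree
is a value, (c) local norms are killed.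
(`lam y = inv (cycClass σ_w y)`: C3 CY2/CY3/CY4/CY6 + `LeafInv`; `lam = 1` at the split places.) -/
def KummerLocalSymbolStatement : Prop :=
  ∀ (k K : Type) [Field k] [NumberField k] [Field K] [NumberField K] [Algebra k K]
    [IsGalois k K] (p : ℕ), p.Prime → p ≠ 2 → Module.finrank k K = p →
    ∀ ζ : k, IsPrimitiveRoot ζ p → ∀ g : kˣ, g ∉ H8.pPow p kˣ →
    ∀ β : K, β ^ p = algebraMap k K g →
    ∀ σ : K ≃ₐ[k] K, (∀ τ : K ≃ₐ[k] K, τ ∈ Subgroup.zpowers σ) → ∀ v : FinPlace k,
      ∃ lam : finX k v →* Multiplicative QZ,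
        (∀ a : kˣ, lam (finLoc k v a) = Multiplicative.ofAdd ((layerOf k K).linv v
          (cycClass (Rep.ofAlgebraAutOnUnits k K) σ (unitOfBase k K a)))) ∧
        (∀ z : QZ, locDegAt k K v • z = 0 → ∃ y : finX k v, lam y = Multiplicative.ofAdd z) ∧
        H8.finNloc k p g v ≤ lam.ker

/-- **Leaf (UNIT-NORM)** : at almost all finite places the local units are local norms from
`k(g^{1/p})` (C6/C7: `v ∤ p`, `g` a unit at `v`). -/
def UnitNormStatement : Prop :=
  ∀ (k : Type) [Field k] [NumberField k] (p : ℕ), p.Prime → p ≠ 2 →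
    ∀ ζ : k, IsPrimitiveRoot ζ p → ∀ g : kˣ,
      {v : FinPlace k | ¬ finU k v ≤ H8.finNloc k p g v}.Finite

/-- **Leaf (FULL-PLACE)** : a cyclic layer of `p`-power degree has a finite place of full local
degree (Frobenius density, helper81; or C6 for the degree-`p` sublayer). -/
def FullPlaceStatement : Prop :=
  ∀ (k K : Type) [Field k] [NumberField k] [Field K] [NumberField K] [Algebra k K]
    [IsGalois k K] [IsCyclic (K ≃ₐ[k] K)] (p : ℕ), p.Prime →
    (∃ n : ℕ, Module.finrank k K = p ^ n) →
    ∃ v : FinPlace k, locDegAt k K v = Module.finrank k K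

/-- **Existence for Kummer layers of degree `p`** (assembly: `ex_of_secondIneq` with
LOCSYM, UNIT-NORM, FULL-PLACE, `H8.SecondIneqStatement`, reciprocity (B2) for the classes
`cycClass σ a`, `H88.FiniteNonunitStatement`). -/
def PrimeExStatement (p : ℕ) : Prop :=
  p.Prime → p ≠ 2 →
  ∀ (k K : Type) [Field k] [NumberField k] [Field K] [NumberField K] [Algebra k K]
    [IsGalois k K], (∃ ζ : k, IsPrimitiveRoot ζ p) → Module.finrank k K = p →
    (layerOf k K).Ex (locDegAt k K)

/-! ### Local degrees and places in towers (package C5) -/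

/-- **Leaf (LOCDEG-MUL)** : `[K_W : k_v] = [E_w : k_v] · [K_W : E_w]`. -/
def LocDegMulStatement : Prop :=
  ∀ (k E K : Type) [Field k] [NumberField k] [Field E] [NumberField E] [Field K] [NumberField K]
    [Algebra k E] [Algebra E K] [Algebra k K] [IsScalarTower k E K] [IsGalois k K]
    (w : FinPlace E),
    haveI : Normal E K := Normal.tower_top_of_normal k E K
    locDegAt k K (w.below k) = w.locDeg k * locDegAt E K w

/-- **Leaf (LOCDEG-QUOT)** : for `E / k` Galois the local degree at the chosen place above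
`w.below k` is the local degree at `w`. -/
def LocDegQuotStatement : Prop :=
  ∀ (k E : Type) [Field k] [NumberField k] [Field E] [NumberField E] [Algebra k E]
    [IsGalois k E] (w : FinPlace E), locDegAt k E (w.below k) = w.locDeg k

/-- **Leaf (BELOW)** : every finite place of `k` has a place of `E` above it, and only finitely
many. -/
def BelowStatement : Prop :=
  ∀ (k E : Type) [Field k] [NumberField k] [Field E] [NumberField E] [Algebra k E],
    Function.Surjective (fun w : FinPlace E => w.below k) ∧
      ∀ v : FinPlace k, {w : FinPlace E | w.below k = v}.Finite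

/-- **Leaf (DEG-SUM)** : `∑_{w ∣ v} [E_w : k_v] = [E : k]`, in the summed form. -/
def SumLocDegStatement : Prop :=
  ∀ (k E : Type) [Field k] [NumberField k] [Field E] [NumberField E] [Algebra k E]
    (t : FinPlace k → QZ), (Function.support t).Finite →
    ∑ᶠ w : FinPlace E, w.locDeg k • t (w.below k) = Module.finrank k E • ∑ᶠ v, t v

/-- **Leaf (LINV-FIN)** : a class has only finitely many nonzero local invariants. -/
def LinvFinStatement : Prop :=
  ∀ (k K : Type) [Field k] [NumberField k] [Field K] [NumberField K] [Algebra k K]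
    [IsGalois k K] (α : groupCohomology (layerOf k K).M 2),
    (Function.support fun v => (layerOf k K).linv v α).Finite

/-- **Leaf (SUB-PRES-SURJ)** : the change of presentation `subH2` is surjective. -/
def SubH2SurjStatement : Prop :=
  ∀ (k E K : Type) [Field k] [NumberField k] [Field E] [NumberField E] [Field K] [NumberField K]
    [Algebra k E] [Algebra E K] [Algebra k K] [IsScalarTower k E K] [IsGalois k K],
    Function.Surjective (subH2 k E K)

/-- **Leaf (QUOT-PRES-SURJ)** : the change of presentation `quotH2` is surjective. -/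
def QuotH2SurjStatement : Prop :=
  ∀ (k E K : Type) [Field k] [NumberField k] [Field E] [NumberField E] [Field K] [NumberField K]
    [Algebra k E] [Algebra E K] [Algebra k K] [IsScalarTower k E K] [IsGalois k E] [IsGalois k K]
    [FiniteDimensional k K], Function.Surjective (quotH2 k E K)

/-! ### Cyclic layers of `p`-power degree -/

/-- **Leaf (LINV-CONJ)** : for an abelian layer `K / k` and `s ∈ Gal(K/k)`, the local invariants
of the cyclic class of `s b` (`b ∈ Eˣ`) in the layer `K / E` are those of the cyclic class of `b`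
at conjugate places. -/
def LinvConjStatement : Prop :=
  ∀ (k E K : Type) [Field k] [NumberField k] [Field E] [NumberField E] [Field K] [NumberField K]
    [Algebra k E] [Algebra E K] [Algebra k K] [IsScalarTower k E K] [IsGalois k E] [IsGalois k K]
    [IsCyclic (K ≃ₐ[k] K)] (s : E ≃ₐ[k] E) (σ' : K ≃ₐ[E] K),
    (∀ τ : K ≃ₐ[E] K, τ ∈ Subgroup.zpowers σ') → ∀ (b : Eˣ) (w : FinPlace E),
    haveI : Normal E K := Normal.tower_top_of_normal k E K
    ∃ w' : FinPlace E, w'.below k = w.below k ∧ w'.locDeg k = w.locDeg k ∧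
      (layerOf E K).linv w (cycClass (Rep.ofAlgebraAutOnUnits E K) σ'
          (unitOfBase E K (Units.map (s : E →* E) b))) =
        (layerOf E K).linv w' (cycClass (Rep.ofAlgebraAutOnUnits E K) σ' (unitOfBase E K b))

/-- **Leaf (RES-LIFT)** : in a cyclic layer `K / k` of `p`-power degree over `k ∋ μ_p`, a class
of `K / E` whose local invariants are `[E_w : k_v] • t v` is the restriction of a class of
`K / k`.  (CY2: `β = cycClass σ' b`; LINV-CONJ + Hasse (B1) for `K / E`: `σ b / b` is a norm from
`K`; Hilbert 90 for `K / k`: `b = a · N_{K/E}(d)` with `a ∈ kˣ`; CY6.) -/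
def CyclicResLiftStatement (p : ℕ) : Prop :=
  p.Prime → p ≠ 2 →
  ∀ (k E K : Type) [Field k] [NumberField k] [Field E] [NumberField E] [Field K] [NumberField K]
    [Algebra k E] [Algebra E K] [Algebra k K] [IsScalarTower k E K] [IsGalois k E] [IsGalois k K]
    [FiniteDimensional k K] [IsCyclic (K ≃ₐ[k] K)],
    (∃ ζ : k, IsPrimitiveRoot ζ p) → (∃ n : ℕ, Module.finrank k K = p ^ n) →
    ∀ (β : groupCohomology (towerOf k E K).sub.M 2) (t : FinPlace k → QZ),
      (∀ w : FinPlace E, (towerOf k E K).linvSub w β = w.locDeg k • t (w.below k)) →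
      ∃ α : groupCohomology (layerOf k K).M 2,
        resH2 (layerOf k K).M (towerOf k E K).H α = β

/-- **Export (B3), consumer form: existence for cyclic layers of `p`-power degree over fields
containing `μ_p`** (induction on the degree: `PrimeExStatement`, `Tower.ex_of`, the tower
leaves, `CyclicResLiftStatement`, reciprocity (B2)).  The consumer applies it to the layers of
the cyclotomic `ℤ_p`-extension, whose local degrees grow at every finite place. -/
def CyclicExStatement (p : ℕ) : Prop :=
  p.Prime → p ≠ 2 →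
  ∀ (k K : Type) [Field k] [NumberField k] [Field K] [NumberField K] [Algebra k K]
    [IsGalois k K] [IsCyclic (K ≃ₐ[k] K)], (∃ ζ : k, IsPrimitiveRoot ζ p) →
    (∃ n : ℕ, Module.finrank k K = p ^ n) → (layerOf k K).Ex (locDegAt k K)

end Fermat.Agent.S55.H29
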