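/-
S55 (Poitou–Tate), package C8 — helper29.  SPEC v2, part 3a: the idele terms used by export (B4)
(`H³`), on helper88's full finite ideles (`H88.ideleRep`, `H88.ideleClassRep`).

* `ideleToLoc`, `jinvAt`, `jinv k K v` : the local invariant at a finite place `v` of `k` of a
  class of `H²(Gal(K/k), J_K)`;
* `jinv_ideleDiag` : on the image of `H²(Gal(K/k), Kˣ)` it is the local invariant `linv v`;
* `ideleInfl k K L`, `classInfl k K L` : the inclusions `J_K → J_L`, `C_K → C_L` as morphisms of
  representations of `Gal(L/k)` (inflation), with the two commutative squares;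
* `subGal k K L`, `unitsSub`, `ideleSub`, `classSub` : restriction from `Gal(L/k)` to `Gal(L/K)`,
  with the two commutative squares.
-/
import Fermat.Agent.S55.H29.C8Ex
import Fermat.Agent.S55.H88.SData

set_option autoImplicit false

open CategoryTheory groupCohomology Rep

noncomputable section

namespace Fermat.Agent.S55.H29

open Fermat.Agent.S55.H88 Fermat.Agent.S55.H66

attribute [local instance] factOfPrimes

/-! ### Local invariants of idele classes -/

section Jinv

variable (k : Type) {K : Type} [Field k] [Field K] [Algebra k K] [Normal k K]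
  (q : Nat.Primes) (τ' : K →+* PadicAlgCl (q : ℕ))

/-- The component at `q` of an idele, evaluated at `τ'`: `J_K → K_wˣ`. -/
def ideleEvalHom : ideleGroup K →* (locExt (q : ℕ) k τ')ˣ :=
  (Units.map (semiLocalEvalExt (q : ℕ) k τ' : semiLocal (q : ℕ) K →* locExt (q : ℕ) k τ')).comp
    (ideleComponent K q)

/-- The localisation of the ideles at `τ'`, as a morphism of representations of
`Gal(K_w / k_v)`. -/
def ideleToLoc :
    Rep.res (locGalToGlobal (q : ℕ) k τ') (ideleRep k K) ⟶
      Rep.ofAlgebraAutOnUnits (locBase (q : ℕ) k τ') (locExt (q : ℕ) k τ') :=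
  Rep.ofHom ⟨(MonoidHom.toAdditive (ideleEvalHom k q τ')).toIntLinearMap,
    fun α => LinearMap.ext fun x => congrArg Additive.ofMul (Units.ext
      (semiLocalEvalExt_smul (q : ℕ) k τ' α
        ((((Additive.toMul (α := ideleGroup K) x : ideleGroup K) :
          ∀ q : Nat.Primes, (semiLocal (q : ℕ) K)ˣ) q : (semiLocal (q : ℕ) K)ˣ) :
            semiLocal (q : ℕ) K)))⟩

/-- The local invariant at `τ'` of a class in `H²(Gal(K/k), J_K)`. -/
def jinvAt : groupCohomology (ideleRep k K) 2 →+ QZ :=
  (H66.inv (q : ℕ) (locExt (q : ℕ) k τ')).comp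
    (groupCohomology.map (locGalToGlobal (q : ℕ) k τ') (ideleToLoc k q τ') 2).hom.toAddMonoidHom

end Jinv

section JinvLayer

variable (k K : Type) [Field k] [Field K] [Algebra k K] [Normal k K]

/-- The local invariant at the finite place `v` of `k` (computed at the chosen place of `K`
above `v`) of a class in `H²(Gal(K/k), J_K)`. -/
def jinv (v : FinPlace k) : groupCohomology (ideleRep k K) 2 →+ QZ :=
  jinvAt k v.1 (v.ext K)

end JinvLayer

section JLoc

variable (k K : Type) [Field k] [Field K] [Algebra k K] [Normal k K] [NumberField K]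

/-- **(J-LOC)** On the image of `H²(Gal(K/k), Kˣ)` the idele invariant at `τ'` is the local
invariant of the global class. -/
theorem jinvAt_ideleDiag (q : Nat.Primes) (τ' : K →+* PadicAlgCl (q : ℕ))
    (α : groupCohomology (Rep.ofAlgebraAutOnUnits k K) 2) :
    jinvAt k q τ' (mapH2 (ideleDiag k K) α) = linvAt (q : ℕ) k τ' α := by
  have e1 : groupCohomology.map (MonoidHom.id (K ≃ₐ[k] K)) (ideleDiag k K) 2 ≫
        groupCohomology.map (locGalToGlobal (q : ℕ) k τ') (ideleToLoc k q τ') 2
      = groupCohomology.map (locGalToGlobal (q : ℕ) k τ') (globalToLocUnits (q : ℕ) k τ') 2 := by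
    rw [← groupCohomology.map_comp]
    exact groupCohomology.map_congr (MonoidHom.id_comp _) (LinearMap.ext fun x => rfl) 2
  exact congrArg (H66.inv (q : ℕ) (locExt (q : ℕ) k τ')) (congrArg (fun f => f.hom α) e1)

/-- **(J-LOC)** in the layer form. -/
theorem jinv_ideleDiag (v : FinPlace k) (α : groupCohomology (Rep.ofAlgebraAutOnUnits k K) 2) :
    jinv k K v (mapH2 (ideleDiag k K) α) = (layerOf k K).linv v α :=
  jinvAt_ideleDiag k K v.1 (v.ext K) α

end JLoc

/-! ### Inflation: `J_K → J_L`, `C_K → C_L` -/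

section Infl

variable (k K L : Type) [Field k] [Field K] [Field L] [Algebra k K] [Algebra k L] [Algebra K L]
  [IsScalarTower k K L]

/-- The inclusion of ideles `J_K → J_L`. -/
def ideleInflHom : ideleGroup K →* ideleGroup L where
  toFun x := ⟨fun q => Units.map
      (semiLocalMap (q : ℕ) K L : semiLocal (q : ℕ) K →* semiLocal (q : ℕ) L)
      ((x : ∀ q : Nat.Primes, (semiLocal (q : ℕ) K)ˣ) q),
    Set.Finite.subset x.2 fun q hq h => hq fun τ => h (τ.comp (algebraMap K L))⟩
  map_one' := Subtype.ext (funext fun q => map_one _)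
  map_mul' x y := Subtype.ext (funext fun q => map_mul _ _ _)

theorem ideleInflHom_apply (x : ideleGroup K) (q : Nat.Primes) (τ : L →+* PadicAlgCl (q : ℕ)) :
    ((((ideleInflHom K L x : ideleGroup L) : ∀ q : Nat.Primes, (semiLocal (q : ℕ) L)ˣ) q :
        semiLocal (q : ℕ) L) : (L →+* PadicAlgCl (q : ℕ)) → PadicAlgCl (q : ℕ)) τ
      = ((((x : ∀ q : Nat.Primes, (semiLocal (q : ℕ) K)ˣ) q : (semiLocal (q : ℕ) K)ˣ) :
        semiLocal (q : ℕ) K) : (K →+* PadicAlgCl (q : ℕ)) → PadicAlgCl (q : ℕ))
          (τ.comp (algebraMap K L)) := rfl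

variable [Normal k K]

/-- The inclusion `J_K → J_L` as a morphism of representations of `Gal(L/k)`. -/
def ideleInfl :
    Rep.res (AlgEquiv.restrictNormalHom (F := k) (K₁ := L) K) (ideleRep k K) ⟶ ideleRep k L :=
  Rep.ofHom ⟨(MonoidHom.toAdditive (ideleInflHom K L)).toIntLinearMap, fun σ => by
    refine LinearMap.ext fun x => congrArg Additive.ofMul (Subtype.ext (funext fun q =>
      Units.ext (Subtype.ext (funext fun τ => ?_))))
    have h : (τ.comp (algebraMap K L)).comp
          (((AlgEquiv.restrictNormalHom (F := k) (K₁ := L) K σ : K ≃ₐ[k] K) : K ≃+* K) : K →+* K)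
        = (τ.comp (((σ : L ≃ₐ[k] L) : L ≃+* L) : L →+* L)).comp (algebraMap K L) :=
      RingHom.ext fun y => congrArg τ (AlgEquiv.restrictNormal_commutes σ K y)
    exact congrArg ((((Additive.toMul (α := ideleGroup K) x : ideleGroup K) :
      ∀ q : Nat.Primes, (semiLocal (q : ℕ) K)ˣ) q : (semiLocal (q : ℕ) K)ˣ) :
        (K →+* PadicAlgCl (q : ℕ)) → PadicAlgCl (q : ℕ)) h⟩

end Infl

section ClassInfl

variable (k K L : Type) [Field k] [Field K] [Field L] [Algebra k K] [Algebra k L] [Algebra K L]
  [IsScalarTower k K L] [Normal k K] [NumberField K] [NumberField L]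

/-- The square `Kˣ → J_K → J_L = Kˣ → Lˣ → J_L`. -/
theorem ideleDiag_ideleInfl :
    (Rep.resFunctor (AlgEquiv.restrictNormalHom (F := k) (K₁ := L) K)).map (ideleDiag k K) ≫
        ideleInfl k K L
      = unitsInflHom k K L ≫ ideleDiag k L := by
  apply Rep.hom_ext
  apply Representation.IntertwiningMap.ext
  refine LinearMap.ext fun x => ?_
  rfl

/-- The map `C_K → C_L` induced by the inclusion of ideles, as a linear map. -/
def classInflLin : (ideleClassRep k K).V →ₗ[ℤ] (ideleClassRep k L).V :=
  Submodule.liftQ (idelePrincipal k K)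
    ((ideleClassProj k L).hom.toLinearMap ∘ₗ (ideleInfl k K L).hom.toLinearMap) (by
      rintro _ ⟨x, rfl⟩
      refine (Submodule.Quotient.mk_eq_zero (idelePrincipal k L)).mpr
        ⟨(unitsInflHom k K L).hom x, ?_⟩
      exact (congrArg (fun f => f.hom x) (ideleDiag_ideleInfl k K L)).symm)

theorem classInflLin_mk (x : (ideleRep k K).V) :
    classInflLin k K L ((ideleClassProj k K).hom x)
      = (ideleClassProj k L).hom ((ideleInfl k K L).hom x) := rfl

/-- The inclusion `C_K → C_L` as a morphism of representations of `Gal(L/k)`. -/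
def classInfl :
    Rep.res (AlgEquiv.restrictNormalHom (F := k) (K₁ := L) K) (ideleClassRep k K) ⟶
      ideleClassRep k L :=
  Rep.ofHom ⟨classInflLin k K L, fun σ => by
    refine LinearMap.ext fun c => ?_
    obtain ⟨x, rfl⟩ := Submodule.mkQ_surjective (idelePrincipal k K) c
    have h := Rep.hom_comm_apply (ideleInfl k K L) σ x
    exact congrArg (ideleClassProj k L).hom h⟩

/-- The square `J_K → C_K → C_L = J_K → J_L → C_L`. -/
theorem ideleClassProj_classInfl :
    (Rep.resFunctor (AlgEquiv.restrictNormalHom (F := k) (K₁ := L) K)).map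
        (ideleClassProj k K) ≫ classInfl k K L
      = ideleInfl k K L ≫ ideleClassProj k L := by
  apply Rep.hom_ext
  apply Representation.IntertwiningMap.ext
  refine LinearMap.ext fun x => ?_
  rfl

end ClassInfl

/-! ### Restriction from `Gal(L/k)` to `Gal(L/K)` -/

section Sub

variable (k K L : Type) [Field k] [Field K] [Field L] [Algebra k K] [Algebra K L] [Algebra k L]
  [IsScalarTower k K L]

/-- `Gal(L/K) → Gal(L/k)`. -/
def subGal : (L ≃ₐ[K] L) →* (L ≃ₐ[k] L) := (fixSubgroup k K L).subtype.comp (galToFix k K L)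

theorem subGal_apply (σ : L ≃ₐ[K] L) (x : L) : subGal k K L σ x = σ x := rfl

/-- `Lˣ` as a `Gal(L/K)`-module is the restriction of `Lˣ` as a `Gal(L/k)`-module. -/
def unitsSub :
    Rep.res (subGal k K L) (Rep.ofAlgebraAutOnUnits k L) ⟶ Rep.ofAlgebraAutOnUnits K L :=
  Rep.ofHom ⟨LinearMap.id, fun _ => rfl⟩

/-- `J_L` as a `Gal(L/K)`-module is the restriction of `J_L` as a `Gal(L/k)`-module. -/
def ideleSub : Rep.res (subGal k K L) (ideleRep k L) ⟶ ideleRep K L :=
  Rep.ofHom ⟨LinearMap.id, fun _ => rfl⟩

variable [NumberField L]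

/-- The square `Lˣ → J_L` over `Gal(L/k)` and over `Gal(L/K)`. -/
theorem ideleDiag_ideleSub :
    (Rep.resFunctor (subGal k K L)).map (ideleDiag k L) ≫ ideleSub k K L
      = unitsSub k K L ≫ ideleDiag K L := by
  apply Rep.hom_ext
  apply Representation.IntertwiningMap.ext
  refine LinearMap.ext fun x => ?_
  rfl

/-- The identity `C_L → C_L` (from the `Gal(L/k)`-presentation to the `Gal(L/K)`-presentation),
as a linear map. -/
def classSubLin : (ideleClassRep k L).V →ₗ[ℤ] (ideleClassRep K L).V :=
  Submodule.liftQ (idelePrincipal k L)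
    ((ideleClassProj K L).hom.toLinearMap ∘ₗ (ideleSub k K L).hom.toLinearMap) (by
      rintro _ ⟨x, rfl⟩
      refine (Submodule.Quotient.mk_eq_zero (idelePrincipal K L)).mpr
        ⟨(unitsSub k K L).hom x, ?_⟩
      exact (congrArg (fun f => f.hom x) (ideleDiag_ideleSub k K L)).symm)

/-- `C_L` as a `Gal(L/K)`-module is the restriction of `C_L` as a `Gal(L/k)`-module. -/
def classSub : Rep.res (subGal k K L) (ideleClassRep k L) ⟶ ideleClassRep K L :=
  Rep.ofHom ⟨classSubLin k K L, fun σ => by
    refine LinearMap.ext fun c => ?_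
    obtain ⟨x, rfl⟩ := Submodule.mkQ_surjective (idelePrincipal k L) c
    have h := Rep.hom_comm_apply (ideleSub k K L) σ x
    exact congrArg (ideleClassProj K L).hom h⟩

/-- The square `J_L → C_L` over `Gal(L/k)` and over `Gal(L/K)`. -/
theorem ideleClassProj_classSub :
    (Rep.resFunctor (subGal k K L)).map (ideleClassProj k L) ≫ classSub k K L
      = ideleSub k K L ≫ ideleClassProj K L := by
  apply Rep.hom_ext
  apply Representation.IntertwiningMap.ext
  refine LinearMap.ext fun x => ?_
  rfl

end Sub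

end Fermat.Agent.S55.H29
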