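/-
S55 (Poitou–Tate), package C8 — helper29.  SPEC v2, part 3: export (B4) — every `p`-primary class
of `H³(Gal(K/k), Kˣ)` dies in `K·E`, `E/k` cyclic of degree the `p`-part of `[K : k]`, `μ_p ⊆ k`.
Class formation FROM (B1)–(B3), on helper88's full finite ideles (terms: `C8Idele.lean`).

Proved here (model-independent cores):
* `pprimary_adjust`, `lift_core_p` : the lifting lemma of `C8Fund`, `p`-primary form (no bound on
  the prime-to-`p` part of `H²(Gal(K/k), C_K)` is needed);
* `h3_kill_core` : `x ∈ H³(G₁, M₁)` `p`-primary, `H³(G₁, M₁) → H³(G₁, J₁)` zero, every `p`-primary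
  class of `H²(G₁, C₁)` inflates into the image of `H²(G, J)`  ⟹  the inflation of `x` is `0`;
* `h3Kill_of` : `H3KillStatement p` from `IdeleH3Statement` and `LiftStatement p`.

Leaves (`Prop`s, see the table in the team database): J-DETECT, J-FIN, J-ADM, J-INF, J-RES,
J-SURJ, IDELE-H3 (SEMILOCAL-H3, UNR-H3, GLUE-3), CYC-H3, CLASS-INV, CLASS-INFRES, CLASS-SYLOW;
assemblies: CLASS-H1, CYC-KER, CLASS-CYC, CLASS-PBOUND, LIFT.
-/
import Fermat.Agent.S55.H29.C8Idele
import Fermat.Agent.S55.H29.C8Rec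
import Fermat.Agent.S55.H71.ShapiroAll
import Fermat.Agent.S55.H80.ResIndexCor
import Fermat.Agent.S55.H28.AlmostUnram

set_option autoImplicit false

open CategoryTheory groupCohomology Rep

noncomputable section

namespace Fermat.Agent.S55.H29

open Fermat.Agent.S55.H88 Fermat.Agent.S55.H66

/-! ### Model-independent cores -/

/-- In a group killed by `n`, an element whose image under `f` is `p`-primary can be replaced by
a `p`-primary element with the same image. -/
theorem pprimary_adjust {A B : Type*} [AddCommGroup A] [AddCommGroup B] (f : A →+ B) (p : ℕ)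
    (hp : p.Prime) (n : ℕ) (hn : 0 < n) (htors : ∀ a : A, n • a = 0) (a : A)
    (hb : ∃ j : ℕ, p ^ j • f a = 0) : ∃ a' : A, (∃ j : ℕ, p ^ j • a' = 0) ∧ f a' = f a := by
  obtain ⟨j, hj⟩ := hb
  obtain ⟨e, m', hm', rfl⟩ := Nat.exists_eq_pow_mul_and_not_dvd hn.ne' p hp.ne_one
  have hcop : IsCoprime ((p ^ j : ℕ) : ℤ) (m' : ℤ) :=
    Nat.isCoprime_iff_coprime.2 (Nat.Coprime.pow_left j ((Nat.Prime.coprime_iff_not_dvd hp).2 hm'))
  obtain ⟨u, v, huv⟩ := hcop
  refine ⟨(v * (m' : ℤ)) • a, ⟨e, ?_⟩, ?_⟩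
  · rw [← natCast_zsmul, smul_smul, show ((p ^ e : ℕ) : ℤ) * (v * (m' : ℤ))
      = v * ((p ^ e * m' : ℕ) : ℤ) by push_cast; ring, mul_smul, natCast_zsmul, htors, smul_zero]
  · have hv : v * (m' : ℤ) = 1 - u * ((p ^ j : ℕ) : ℤ) := by linarith
    have h1 : (v * (m' : ℤ)) • f a = f a - u • ((p ^ j : ℕ) • f a) := by
      rw [hv, sub_smul, one_smul, mul_smul, natCast_zsmul]
    rw [map_zsmul, h1, hj, smul_zero, sub_zero]

/-- **Lifting lemma, `p`-primary form (pure group theory).**  `inf₁ : B₁ → A`, `inf₂ : B₂ → A`,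
`π : X → A`; `B₁` is killed by `n`; `inf₁` is injective on the `p`-primary elements; `inf₂` is
injective with range inside the ranges of `π` and of `inf₁`; `#B₂ = p ^ a`; and there is
`ρ : B₁ → R`, injective on the `p`-primary elements, with `#R ∣ p ^ a`.  Then `inf₁` maps the
`p`-primary elements of `B₁` into the range of `π`. -/
theorem lift_core_p {A B₁ B₂ X R : Type*} [AddCommGroup A] [AddCommGroup B₁] [AddCommGroup B₂]
    [AddCommGroup X] [AddCommGroup R] (inf₁ : B₁ →+ A) (inf₂ : B₂ →+ A) (π : X →+ A)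
    (ρ : B₁ →+ R) (p a n : ℕ) (hp : p.Prime) (hn : 0 < n) (htors : ∀ b : B₁, n • b = 0)
    (hinj₁ : ∀ b : B₁, (∃ j : ℕ, p ^ j • b = 0) → inf₁ b = 0 → b = 0)
    (hinj₂ : Function.Injective inf₂)
    (h1 : inf₂.range ≤ π.range) (h2 : inf₂.range ≤ inf₁.range)
    (hB₂ : Nat.card B₂ = p ^ a) (hR : Nat.card R ∣ p ^ a)
    (hρ : ∀ b : B₁, (∃ j : ℕ, p ^ j • b = 0) → ρ b = 0 → b = 0)
    (b₁ : B₁) (hb₁ : ∃ j : ℕ, p ^ j • b₁ = 0) : inf₁ b₁ ∈ π.range := by
  have hpa : 0 < p ^ a := pow_pos hp.pos a
  -- the `p`-primary subgroup of `B₁`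
  let T : AddSubgroup B₁ :=
    { carrier := {b | ∃ j : ℕ, p ^ j • b = 0}
      zero_mem' := ⟨0, smul_zero _⟩
      add_mem' := by
        rintro x y ⟨i, hi⟩ ⟨j, hj⟩
        refine ⟨i + j, ?_⟩
        rw [smul_add, pow_add, mul_smul, mul_smul, hj, smul_zero, add_zero, smul_comm, hi,
          smul_zero]
      neg_mem' := by
        rintro x ⟨i, hi⟩
        exact ⟨i, by rw [smul_neg, hi, neg_zero]⟩ }
  have hT : ∀ b : B₁, b ∈ T ↔ ∃ j : ℕ, p ^ j • b = 0 := fun b => Iff.rfl
  haveI : Finite R := Nat.finite_of_card_ne_zero fun h0 => hpa.ne' (by simpa [h0] using hR)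
  -- `ρ` is injective on `T`
  have hρT : Function.Injective (ρ.comp T.subtype) := by
    rw [injective_iff_map_eq_zero]
    intro t ht
    exact Subtype.ext (hρ t t.2 ht)
  haveI : Finite T := Finite.of_injective _ hρT
  have hTcard : Nat.card T ∣ p ^ a :=
    (AddSubgroup.card_dvd_of_injective _ hρT).trans hR
  -- `inf₁` is injective on `T`
  have hιT : Function.Injective (inf₁.comp T.subtype) := by
    rw [injective_iff_map_eq_zero]
    intro t ht
    exact Subtype.ext (hinj₁ t t.2 ht)
  have hS₁ : Nat.card (inf₁.comp T.subtype).range = Nat.card T :=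
    (Nat.card_congr (AddMonoidHom.ofInjective hιT).toEquiv).symm
  have hS₂ : Nat.card inf₂.range = p ^ a := by
    rw [← hB₂]; exact (Nat.card_congr (AddMonoidHom.ofInjective hinj₂).toEquiv).symm
  -- the range of `inf₂` is inside `inf₁ T`
  have hle : inf₂.range ≤ (inf₁.comp T.subtype).range := by
    rintro _ ⟨b₂, rfl⟩
    obtain ⟨b, hb⟩ := h2 ⟨b₂, rfl⟩
    have hpb : ∃ j : ℕ, p ^ j • inf₁ b = 0 := ⟨a, by
      rw [hb, ← map_nsmul, ← hB₂, card_nsmul_eq_zero', map_zero]⟩
    obtain ⟨b', hb', hbb'⟩ := pprimary_adjust inf₁ p hp n hn htors b hpb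
    exact ⟨⟨b', hb'⟩, hbb'.trans hb⟩
  haveI : Finite (inf₁.comp T.subtype).range := Finite.of_equiv T
    (AddMonoidHom.ofInjective hιT).toEquiv
  have hcard : Nat.card (inf₁.comp T.subtype).range ≤ Nat.card inf₂.range := by
    rw [hS₁, hS₂]
    exact Nat.le_of_dvd hpa hTcard
  have heq : inf₂.range = (inf₁.comp T.subtype).range :=
    AddSubgroup.eq_of_le_of_card_ge hle hcard
  refine h1 ?_
  rw [heq]
  exact ⟨⟨b₁, hb₁⟩, rfl⟩

/-- **`H³` kill, cohomological core.**  `φ : G →* G₁` (restriction `Gal(L/k) → Gal(K/k)`), a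
morphism `(φ₁, φ₂, φ₃)` from the short exact sequence `X₁ = (M₁ → J₁ → C₁)` of `G₁`-modules to
the short exact sequence `X = (M → J → C)` of `G`-modules.  If `H³(G₁, M₁) → H³(G₁, J₁)` is zero,
`H²(G₁, C₁)` is killed by `n`, and every `p`-primary class of `H²(G₁, C₁)` inflates into the
image of `H²(G, J)`, then the inflation `H³(G₁, M₁) → H³(G, M)` kills the `p`-primary classes. -/
theorem h3_kill_core {G₁ G : Type} [Group G₁] [Group G] (φ : G →* G₁)
    {X₁ : ShortComplex (Rep.{0, 0, 0} ℤ G₁)} {X : ShortComplex (Rep.{0, 0, 0} ℤ G)}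
    (hX₁ : X₁.ShortExact) (hX : X.ShortExact)
    (φ₁ : res φ X₁.X₁ ⟶ X.X₁) (φ₂ : res φ X₁.X₂ ⟶ X.X₂) (φ₃ : res φ X₁.X₃ ⟶ X.X₃)
    (c₁ : (resFunctor φ).map X₁.f ≫ φ₂ = φ₁ ≫ X.f)
    (c₂ : (resFunctor φ).map X₁.g ≫ φ₃ = φ₂ ≫ X.g)
    (hJ3 : ∀ x : groupCohomology X₁.X₁ 3, mapHn 3 X₁.f x = 0)
    (p n : ℕ) (hp : p.Prime) (hn : 0 < n) (htors : ∀ c : groupCohomology X₁.X₃ 2, n • c = 0)
    (hlift : ∀ c : groupCohomology X₁.X₃ 2, (∃ j : ℕ, p ^ j • c = 0) →
      ∃ y : groupCohomology X.X₂ 2, mapHn 2 X.g y = (groupCohomology.map φ φ₃ 2).hom c)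
    (x : groupCohomology X₁.X₁ 3) (hx : ∃ j : ℕ, p ^ j • x = 0) :
    (groupCohomology.map φ φ₁ 3).hom x = 0 := by
  -- `x` is a coboundary `δ c`
  obtain ⟨c, hc⟩ : ∃ c : groupCohomology X₁.X₃ 2, (δ hX₁ 2 3 rfl).hom c = x :=
    (ShortComplex.moduleCat_exact_iff _).1 (mapShortComplex₁_exact hX₁ (i := 2) (j := 3) rfl)
      x (hJ3 x)
  -- with `c` `p`-primary
  obtain ⟨c', hc'p, hc'⟩ := pprimary_adjust (δ hX₁ 2 3 rfl).hom.toAddMonoidHom p hp n hn htors c
    (by obtain ⟨j, hj⟩ := hx; exact ⟨j, by rw [← hj, ← hc]; rfl⟩)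
  have hc'' : (δ hX₁ 2 3 rfl).hom c' = x := hc'.trans hc
  obtain ⟨y, hy⟩ := hlift c' hc'p
  have hnat := Fermat.Agent.S55.H71.δ_map_naturality φ hX₁ hX φ₁ φ₂ φ₃ c₁ c₂ 2 3 rfl
  have h1 : (groupCohomology.map φ φ₁ 3).hom ((δ hX₁ 2 3 rfl).hom c')
      = (δ hX 2 3 rfl).hom ((groupCohomology.map φ φ₃ 2).hom c') :=
    congrArg (fun g => g.hom c') hnat
  have h3 : (δ hX 2 3 rfl).hom (mapHn 2 X.g y) = 0 :=
    congrArg (fun g => g.hom y) (mapShortComplex₃ hX (i := 2) (j := 3) rfl).zero
  rw [← hc'', h1, ← hy, h3]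

attribute [local instance] factOfPrimes

/-! ### Leaves: the local invariants of idele classes (`jinv` of `C8Idele.lean`) -/

/-- **Leaf (J-DETECT)** : a class of `H²(Gal(K/k), J_K)` all of whose local invariants vanish is
zero.  (D4 `H39.ideleDetectStatement_of` + injectivity of `H66.inv` + the passage between the
decomposition-group presentation `locCohMap` and `locGalToGlobal` (`H71/LocGal.lean`) +
independence of the chosen place above `v`: one place per place of `k` suffices, D1.) -/
def JDetectStatement : Prop :=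
  ∀ (k K : Type) [Field k] [NumberField k] [Field K] [NumberField K] [Algebra k K] [IsGalois k K]
    (y : groupCohomology (ideleRep k K) 2), (∀ v : FinPlace k, jinv k K v y = 0) → y = 0

/-- **Leaf (J-FIN)** : a class of `H²(Gal(K/k), J_K)` has only finitely many nonzero local
invariants (a cocycle is unit-valued at almost all primes; D2; as LINV-FIN). -/
def JFinStatement : Prop :=
  ∀ (k K : Type) [Field k] [NumberField k] [Field K] [NumberField K] [Algebra k K] [IsGalois k K]
    (y : groupCohomology (ideleRep k K) 2),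
    (Function.support fun v : FinPlace k => jinv k K v y).Finite

/-- **Leaf (J-ADM)** : the local invariant at `v` is killed by the local degree at `v`
(`H²(Gal(K_w/k_v), K_wˣ)` is killed by the order of the group, `H80.card_smul_eq_zero`). -/
def JAdmStatement : Prop :=
  ∀ (k K : Type) [Field k] [NumberField k] [Field K] [NumberField K] [Algebra k K] [IsGalois k K]
    (y : groupCohomology (ideleRep k K) 2) (v : FinPlace k), locDegAt k K v • jinv k K v y = 0

/-- **Leaf (J-INF)** : inflation `J_K → J_L` preserves the local invariants (as INFL-COMPAT: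
C3 `c3_invInfl` + independence of the chosen place). -/
def JInfStatement : Prop :=
  ∀ (k K L : Type) [Field k] [NumberField k] [Field K] [NumberField K] [Field L] [NumberField L]
    [Algebra k K] [Algebra k L] [Algebra K L] [IsScalarTower k K L] [IsGalois k K] [IsGalois k L]
    (y : groupCohomology (ideleRep k K) 2) (v : FinPlace k),
    jinv k L v ((groupCohomology.map (AlgEquiv.restrictNormalHom (F := k) (K₁ := L) K)
      (ideleInfl k K L) 2).hom y) = jinv k K v y

/-- **Leaf (J-RES)** : restriction to `Gal(L/K)` multiplies the local invariants by the local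
degrees (as SUB-COMPAT: C3 `LeafInvRes` + independence of the chosen place). -/
def JResStatement : Prop :=
  ∀ (k K L : Type) [Field k] [NumberField k] [Field K] [NumberField K] [Field L] [NumberField L]
    [Algebra k K] [Algebra K L] [Algebra k L] [IsScalarTower k K L] [IsGalois k L]
    (z : groupCohomology (ideleRep k L) 2) (w : FinPlace K),
    haveI : Normal K L := Normal.tower_top_of_normal k K L
    jinv K L w ((groupCohomology.map (subGal k K L) (ideleSub k K L) 2).hom z)
      = w.locDeg k • jinv k L (w.below k) z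

/-- **Leaf (J-SURJ)** : every element of `ℚ/ℤ` killed by the local degree at `v` is the local
invariant at `v` of an idele class whose other local invariants vanish (Shapiro surjectivity:
`H71.famTotal` + `coindIso`, a class supported at the places above `v`; C3: `inv` is onto the
elements killed by the degree). -/
def JSurjStatement : Prop :=
  ∀ (k K : Type) [Field k] [NumberField k] [Field K] [NumberField K] [Algebra k K] [IsGalois k K]
    (v : FinPlace k) (t : QZ), locDegAt k K v • t = 0 →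
    ∃ y : groupCohomology (ideleRep k K) 2, jinv k K v y = t ∧
      ∀ v' : FinPlace k, v' ≠ v → jinv k K v' y = 0

/-! ### Leaves: `H³` -/

/-- **Leaf (SEMILOCAL-H3)** : `H³(Gal(K/k), (K ⊗ ℚ_q)ˣ) = 0` (D1 in degree 3,
`H71.isZero_semiLocalRep`, + local `H³ = 0`, `H84.isZero_H3_units_of_localTateHyp` with
`H66.c3_tate`, through `H71.locEquivDecomp`). -/
def SemiLocalH3Statement : Prop :=
  ∀ (k K : Type) [Field k] [NumberField k] [Field K] [NumberField K] [Algebra k K] [IsGalois k K]
    (q : Nat.Primes), Limits.IsZero (groupCohomology (semiLocalRep (q : ℕ) k K) 3)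

/-- **Leaf (UNR-H3)** : at an unramified prime the semi-local units have trivial `H³` (D2 in
degree 3: the decomposition groups are cyclic, `H73.isZero_H3_of_isZero_H1_of_isCyclic`, and
Shapiro for the units as in `H31/UnramUnits.lean`). -/
def UnramifiedUnitsH3Statement : Prop :=
  ∀ (k K : Type) [Field k] [NumberField k] [Field K] [NumberField K] [Algebra k K] [IsGalois k K]
    (q : Nat.Primes), IsUnramifiedAt (q : ℕ) k K →
      Limits.IsZero (groupCohomology (semiLocalUnitsRep k K (q : ℕ)) 3)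

/-- **Leaf (GLUE-3)** : restricted products in degree 3.  If `H³(G, (K ⊗ ℚ_q)ˣ) = 0` for all `q`
and `H³(G, ∏_{w ∣ q} 𝒪_wˣ) = 0` for almost all `q`, then `H³(G, J_K) = 0`.  (Cochain level,
`cocyclesMk` / `iCocycles`: a cocycle has finitely many values, hence is unit-valued at almost
all `q`; choose the primitives componentwise; the analogue of `H39.H2π_idele_eq_zero`.) -/
def IdeleGlue3Statement : Prop :=
  ∀ (k K : Type) [Field k] [NumberField k] [Field K] [NumberField K] [Algebra k K] [IsGalois k K],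
    (∀ q : Nat.Primes, Limits.IsZero (groupCohomology (semiLocalRep (q : ℕ) k K) 3)) →
    {q : Nat.Primes |
      ¬ Limits.IsZero (groupCohomology (semiLocalUnitsRep k K (q : ℕ)) 3)}.Finite →
    Limits.IsZero (groupCohomology (ideleRep k K) 3)

/-- **(IDELE-H3)** : `H³(Gal(K/k), J_K) = 0`. -/
def IdeleH3Statement : Prop :=
  ∀ (k K : Type) [Field k] [NumberField k] [Field K] [NumberField K] [Algebra k K] [IsGalois k K],
    Limits.IsZero (groupCohomology (ideleRep k K) 3)

/-- (IDELE-H3) from its three leaves and D3 (`H28.almostAllUnramifiedStatement`). -/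
theorem ideleH3_of (h1 : SemiLocalH3Statement) (h2 : UnramifiedUnitsH3Statement)
    (h3 : IdeleGlue3Statement) : IdeleH3Statement := by
  intro k K _ _ _ _ _ _
  refine h3 k K (fun q => h1 k K q) ?_
  refine (Fermat.Agent.S55.H28.almostAllUnramifiedStatement k K).subset ?_
  intro q hq hun
  exact hq (h2 k K q hun)

/-- **Leaf (CYC-H3)** : `H³(Gal(K/k), Kˣ) = 0` for a cyclic layer (periodicity,
`H73.isZero_H3_of_isZero_H1_of_isCyclic`, + Hilbert 90). -/
def CycH3Statement : Prop :=
  ∀ (k K : Type) [Field k] [NumberField k] [Field K] [NumberField K] [Algebra k K] [IsGalois k K]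
    [IsCyclic (K ≃ₐ[k] K)], Limits.IsZero (groupCohomology (Rep.ofAlgebraAutOnUnits k K) 3)

/-! ### Leaves: the idele class module in towers -/

/-- **Leaf (CLASS-INV)** : `C_K → C_L` is injective with image the `Gal(L/K)`-invariants.
(Injective: `J_K → J_L` is injective and `J_K ∩ Lˣ = Kˣ`.  Invariants: Hilbert 90 for `L/K` and
`H88.invariantsStatement_holds` for the semi-local algebras.) -/
def ClassInvStatement : Prop :=
  ∀ (k K L : Type) [Field k] [NumberField k] [Field K] [NumberField K] [Field L] [NumberField L]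
    [Algebra k K] [Algebra k L] [Algebra K L] [IsScalarTower k K L] [IsGalois k K] [IsGalois k L],
    Function.Injective (classInflLin k K L) ∧
    ∀ c : (ideleClassRep k L).V,
      (∀ σ : L ≃ₐ[k] L, σ ∈ fixSubgroup k K L → (ideleClassRep k L).ρ σ c = c) →
      ∃ c₀ : (ideleClassRep k K).V, classInflLin k K L c₀ = c

/-- **Leaf (CLASS-INFRES)** : inflation–restriction for the idele class module in degree 2.  If
`H¹(Gal(L/K), C_L) = 0`, then `H²(Gal(K/k), C_K) → H²(Gal(L/k), C_L)` is injective and its image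
is the kernel of the restriction to `Gal(L/K)`.  (C1-c `H84` for `N = fixSubgroup k K L` +
CLASS-INV + the changes of presentation `subGal` / `quotGalEquiv`.) -/
def ClassInfResStatement : Prop :=
  ∀ (k K L : Type) [Field k] [NumberField k] [Field K] [NumberField K] [Field L] [NumberField L]
    [Algebra k K] [Algebra k L] [Algebra K L] [IsScalarTower k K L] [IsGalois k K] [IsGalois k L],
    Limits.IsZero (groupCohomology (ideleClassRep K L) 1) →
    Function.Injective (groupCohomology.map (AlgEquiv.restrictNormalHom (F := k) (K₁ := L) K)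
      (classInfl k K L) 2).hom ∧
    ∀ x : groupCohomology (ideleClassRep k L) 2,
      (groupCohomology.map (subGal k K L) (classSub k K L) 2).hom x = 0 →
      ∃ c : groupCohomology (ideleClassRep k K) 2,
        (groupCohomology.map (AlgEquiv.restrictNormalHom (F := k) (K₁ := L) K)
          (classInfl k K L) 2).hom c = x

/-- **Leaf (CLASS-SYLOW)** : if `p ∤ [K' : k]`, the restriction `H²(Gal(K/k), C_K) →
H²(Gal(K/K'), C_K)` is injective on the `p`-primary classes (C1-b
`H80.index_smul_eq_zero_of_res_eq_zero` + the change of presentation `subGal`). -/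
def ClassSylowStatement : Prop :=
  ∀ (k K' K : Type) [Field k] [NumberField k] [Field K'] [NumberField K'] [Field K] [NumberField K]
    [Algebra k K'] [Algebra K' K] [Algebra k K] [IsScalarTower k K' K] [IsGalois k K] (p : ℕ),
    p.Prime → ¬ p ∣ Module.finrank k K' → ∀ c : groupCohomology (ideleClassRep k K) 2,
    (∃ j : ℕ, p ^ j • c = 0) →
    (groupCohomology.map (subGal k K' K) (classSub k K' K) 2).hom c = 0 → c = 0

/-! ### Assemblies -/

/-- **(CLASS-H1)** : `H¹(Gal(K/k), C_K) = 0` for `p`-group layers over fields containing `μ_p`.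
(`H¹(J_K) = 0` (D5) → `H¹(C_K) → H²(Kˣ) → H²(J_K)`; a class of `H²(Kˣ)` dying in `H²(J_K)` has
all local invariants `0` by `jinv_ideleDiag`, hence is `0` by `PGroupHasseStatement p`.) -/
def ClassH1Statement (p : ℕ) : Prop :=
  p.Prime → p ≠ 2 →
  ∀ (k K : Type) [Field k] [NumberField k] [Field K] [NumberField K] [Algebra k K] [IsGalois k K],
    (∃ ζ : k, IsPrimitiveRoot ζ p) → (∃ n : ℕ, Module.finrank k K = p ^ n) →
    Limits.IsZero (groupCohomology (ideleClassRep k K) 1)

/-- **(CYC-KER)** : in a cyclic layer of `p`-power degree over `k ∋ μ_p`, an idele class whose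
local invariants add up to `0` comes from `H²(Gal(K/k), Kˣ)`.  (`CyclicExStatement p` with
J-FIN, J-ADM gives `α` with the same invariants; `jinv_ideleDiag`; J-DETECT.) -/
def CycKerStatement (p : ℕ) : Prop :=
  p.Prime → p ≠ 2 →
  ∀ (k K : Type) [Field k] [NumberField k] [Field K] [NumberField K] [Algebra k K] [IsGalois k K]
    [IsCyclic (K ≃ₐ[k] K)], (∃ ζ : k, IsPrimitiveRoot ζ p) →
    (∃ n : ℕ, Module.finrank k K = p ^ n) → ∀ y : groupCohomology (ideleRep k K) 2,
    ∑ᶠ v : FinPlace k, jinv k K v y = 0 →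
    ∃ α : groupCohomology (Rep.ofAlgebraAutOnUnits k K) 2, mapH2 (ideleDiag k K) α = y

/-- **(CLASS-CYC)** : for a cyclic layer of degree `p ^ a` over `k ∋ μ_p`,
`H²(J_K) → H²(C_K)` is onto and `#H²(Gal(K/k), C_K) = p ^ a`.  (Onto: CYC-H3.  Then
`H²(C_K) ≅ H²(J_K) / H²(Kˣ) ≅` the image of `∑ jinv` by CYC-KER and reciprocity (B2); this image
is killed by `p ^ a` and contains an element of order `p ^ a` by J-SURJ at a place of full local
degree, `FullPlaceStatement`.) -/
def ClassCycStatement (p : ℕ) : Prop :=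
  p.Prime → p ≠ 2 →
  ∀ (k K : Type) [Field k] [NumberField k] [Field K] [NumberField K] [Algebra k K] [IsGalois k K]
    [IsCyclic (K ≃ₐ[k] K)], (∃ ζ : k, IsPrimitiveRoot ζ p) →
    ∀ a : ℕ, Module.finrank k K = p ^ a →
    Function.Surjective (mapH2 (ideleClassProj k K)) ∧
      Nat.card (groupCohomology (ideleClassRep k K) 2) = p ^ a

/-- **(CLASS-PBOUND)** : `#H²(Gal(K/k), C_K) ∣ [K : k]` for `p`-group layers over fields
containing `μ_p`.  (Induction on `n`: `K₁` = the fixed field of a normal subgroup of index `p`;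
CLASS-INFRES for `k ⊆ K₁ ⊆ K` with CLASS-H1 for `K/K₁`; CLASS-CYC for `K₁/k`;
`H45.natCard_dvd_mul_of_exact`.) -/
def ClassPBoundStatement (p : ℕ) : Prop :=
  p.Prime → p ≠ 2 →
  ∀ (n : ℕ) (k K : Type) [Field k] [NumberField k] [Field K] [NumberField K] [Algebra k K]
    [IsGalois k K], (∃ ζ : k, IsPrimitiveRoot ζ p) → Module.finrank k K = p ^ n →
    Nat.card (groupCohomology (ideleClassRep k K) 2) ∣ p ^ n

/-- **(LIFT)** : `K/k` Galois with `[K : k] = p ^ a * m'`, `p ∤ m'`; `E/k` cyclic of degree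
`p ^ a`; `L = K·E` (in the form `Gal(L/K) ∩ Gal(L/E) = 1`); `μ_p ⊆ k`.  Then every `p`-primary
class of `H²(Gal(K/k), C_K)` inflates into the image of `H²(Gal(L/k), J_L)`.
(`lift_core_p` with `inf₁`, `inf₂` the inflations from `K/k`, `E/k`; `ρ` = restriction to the
fixed field of a Sylow `p`-subgroup of `Gal(K/k)`: CLASS-SYLOW, CLASS-PBOUND; CLASS-CYC for
`E/k`; CLASS-INFRES for `k ⊆ K ⊆ L` with CLASS-H1 for `L/K`; `range inf₂ ≤ range inf₁` by J-RES,
J-INF, `SumLocDegStatement` and CYC-KER for `L/K`; `inf₂` injective by J-INF, reciprocity (B2)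
for `L/k` and CYC-KER for `E/k`.) -/
def LiftStatement (p : ℕ) : Prop :=
  p.Prime → p ≠ 2 →
  ∀ (k K E L : Type) [Field k] [NumberField k] [Field K] [NumberField K] [Field E] [NumberField E]
    [Field L] [NumberField L] [Algebra k K] [Algebra k E] [Algebra k L] [Algebra K L]
    [Algebra E L] [IsScalarTower k K L] [IsScalarTower k E L] [IsGalois k K] [IsGalois k E]
    [IsGalois k L] [IsCyclic (E ≃ₐ[k] E)], (∃ ζ : k, IsPrimitiveRoot ζ p) →
    ∀ a m' : ℕ, ¬ p ∣ m' → Module.finrank k K = p ^ a * m' → Module.finrank k E = p ^ a →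
    fixSubgroup k K L ⊓ fixSubgroup k E L = ⊥ →
    ∀ c : groupCohomology (ideleClassRep k K) 2, (∃ j : ℕ, p ^ j • c = 0) →
    ∃ y : groupCohomology (ideleRep k L) 2, mapH2 (ideleClassProj k L) y =
      (groupCohomology.map (AlgEquiv.restrictNormalHom (F := k) (K₁ := L) K)
        (classInfl k K L) 2).hom c

/-- **Export (B4), type-based form.**  Same hypotheses as `LiftStatement`: inflation to
`L = K·E` kills the `p`-primary classes of `H³(Gal(K/k), Kˣ)`. -/
def H3KillStatement (p : ℕ) : Prop :=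
  p.Prime → p ≠ 2 →
  ∀ (k K E L : Type) [Field k] [NumberField k] [Field K] [NumberField K] [Field E] [NumberField E]
    [Field L] [NumberField L] [Algebra k K] [Algebra k E] [Algebra k L] [Algebra K L]
    [Algebra E L] [IsScalarTower k K L] [IsScalarTower k E L] [IsGalois k K] [IsGalois k E]
    [IsGalois k L] [IsCyclic (E ≃ₐ[k] E)], (∃ ζ : k, IsPrimitiveRoot ζ p) →
    ∀ a m' : ℕ, ¬ p ∣ m' → Module.finrank k K = p ^ a * m' → Module.finrank k E = p ^ a →
    fixSubgroup k K L ⊓ fixSubgroup k E L = ⊥ →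
    ∀ x : groupCohomology (Rep.ofAlgebraAutOnUnits k K) 3, (∃ j : ℕ, p ^ j • x = 0) →
      (inflOf k K L).mapN 3 x = 0

/-- **Assembly of (B4).** -/
theorem h3Kill_of {p : ℕ} (hJ3 : IdeleH3Statement) (hL : LiftStatement p) :
    H3KillStatement p := by
  intro hp hp2 k K E L _ _ _ _ _ _ _ _ _ _ _ _ _ _ _ _ _ _ _ hζ a m' hm' hK hE hKE x hx
  have hfin : Finite (K ≃ₐ[k] K) := inferInstance
  refine h3_kill_core (AlgEquiv.restrictNormalHom (F := k) (K₁ := L) K)
    (X₁ := ideleShortComplex k K) (X := ideleShortComplex k L)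
    (ideleShortComplex_shortExact k K) (ideleShortComplex_shortExact k L)
    (unitsInflHom k K L) (ideleInfl k K L) (classInfl k K L)
    (ideleDiag_ideleInfl k K L) (ideleClassProj_classInfl k K L) (fun x' => ?_)
    p (Nat.card (K ≃ₐ[k] K)) hp Nat.card_pos (fun c => ?_) (fun c hc => ?_) x hx
  · exact @Subsingleton.elim _ (ModuleCat.subsingleton_of_isZero (hJ3 k K)) _ _
  · exact Fermat.Agent.S55.H80.card_smul_eq_zero (ideleClassRep k K) 2 (Or.inr rfl) c
  · exact hL hp hp2 k K E L hζ a m' hm' hK hE hKE c hc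

end Fermat.Agent.S55.H29
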