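/-
S55 (Poitou–Tate), package C8 — helper29.  The two Mathlib-only arithmetic leaves used to build
the cyclic cyclotomic splitting layer of a `p`-primary Brauer class (statements only: each is a
`Prop`; a prover lands `theorem … : …Statement` in a new file).

* `PrimeOrderStatement` (N1): for an odd prime `p`, an integer `t ≥ 2` and `s ≥ 1` there is a
  prime `q ≠ p`, `q ∤ t`, such that `t` has order exactly `p ^ s` in `(ZMod q)ˣ`
  (any prime divisor `q ≠ p` of `Φ_{p^s}(t)`; `Φ_{p^s}(t) > p` and `p² ∤ Φ_{p^s}(t)`).
* `CyclicQuotientStatement` (N2): in a finite abelian group `A`, given `r ≤ p ^ c` elements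
  whose orders are divisible by `p ^ (k + c)`, there is a homomorphism onto a cyclic `p`-group in
  which all of them have order divisible by `p ^ k` (the group of characters of `p`-power order
  is not the union of `r` subgroups of index `> r`).
-/
import Mathlib

set_option autoImplicit false

namespace Fermat.Agent.S55.H29

/-- **Leaf N1.**  A prime `q` modulo which `t` has order exactly `p ^ s`. -/
def PrimeOrderStatement : Prop :=
  ∀ p : ℕ, p.Prime → p ≠ 2 → ∀ t : ℕ, 2 ≤ t → ∀ s : ℕ, 1 ≤ s →
    ∃ q : ℕ, q.Prime ∧ q ≠ p ∧ ¬ q ∣ t ∧ orderOf (t : ZMod q) = p ^ s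

/-- **Leaf N2.**  A cyclic `p`-quotient of a finite abelian group in which finitely many given
elements keep an order divisible by `p ^ k`. -/
def CyclicQuotientStatement : Prop :=
  ∀ p : ℕ, p.Prime → ∀ (A : Type) [CommGroup A] [Finite A] (r k c : ℕ) (g : Fin r → A),
    r ≤ p ^ c → (∀ i, p ^ (k + c) ∣ orderOf (g i)) →
    ∃ (n : ℕ) (ψ : A →* Multiplicative (ZMod (p ^ n))),
      Function.Surjective ψ ∧ ∀ i, p ^ k ∣ orderOf (ψ (g i))

end Fermat.Agent.S55.H29
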