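/-
S55 (Poitou–Tate), package C8 — helper29.  SPEC v2, part 2b: RECIPROCITY (export B2) in the
concrete model.

`RecStatement NFLayer p` is assembled (`rec_of_split`, proved here, a variant of
`C8Core.rec_of_leaves`) from
* the Hasse principle (B1),
* `CycloRecStatement p` : reciprocity for the classes of a cyclic layer `E/k` of `p`-power degree
  inside `k(ζ_m)` (`m` squarefree, prime to `p`) whose local invariants vanish at the places
  dividing `m`;
* `CycloLayerExistsStatement p` : existence of such layers with local degrees divisible by a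
  given power of `p` at a given finite set of places (R1 of SPEC v1: N1 + N2 + Frobenius);
* `CompositumStatement` and the tower leaves of `C8Hasse` / `C8Ex`.
-/
import Fermat.Agent.S55.H29.C8Ex

set_option autoImplicit false

open CategoryTheory groupCohomology Rep

noncomputable section

namespace Fermat.Agent.S55.H29

open Fermat.Agent.S55.H88 Fermat.Agent.S55.H66

attribute [local instance] factOfPrimes

section Abstract

variable {Q : Type} [AddCommGroup Q]

/-- Variant of `CycSplit` (C8Core) with the Hasse principle of the layer `L''/E` as a hypothesis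
on the sub-layer itself. -/
def CycSplitH (𝒞 : (ℓ : Layer Q) → Set ℓ.V → Prop) (p : ℕ) (ℓ : Layer Q)
    (α : groupCohomology ℓ.M 2) : Prop :=
  ∃ (ℓ' : Layer Q) (I : Layer.Infl ℓ ℓ') (τ : Tower ℓ') (R : Set ℓ'.V),
    I.Compat ∧ τ.Compat ∧ τ.InfCompat ∧ τ.sub.HasseP p ∧ τ.InfResExact ∧ 𝒞 τ.quot R ∧
    (∀ w, τ.deg w • ℓ'.linv (τ.below w) (I.map α) = 0) ∧
    (∀ v ∈ R, ℓ'.linv v (I.map α) = 0)

/-- **Assembly of REC** (variant of `rec_of_leaves`). -/
theorem rec_of_split (𝒜 : Layer Q → Prop) (𝒞 : (ℓ : Layer Q) → Set ℓ.V → Prop) (p : ℕ)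
    (hCyc : CycRecStatement 𝒞)
    (hSplit : ∀ ℓ : Layer Q, 𝒜 ℓ → ∀ α : groupCohomology ℓ.M 2, (∃ k : ℕ, p ^ k • α = 0) →
      CycSplitH 𝒞 p ℓ α) : RecStatement 𝒜 p := by
  intro ℓ hℓ α hα
  obtain ⟨ℓ', I, τ, R, hI, hτ, hτ', hA, hE, hC, hdeg, hR⟩ := hSplit ℓ hℓ α hα
  obtain ⟨k, hk⟩ := hα
  have hα' : ∃ k : ℕ, p ^ k • I.map α = 0 := ⟨k, by rw [← map_nsmul, hk, map_zero]⟩
  refine I.recAt hI α (τ.recAt_of_split hτ hτ' hA hE _ hα' hdeg fun γ hγ => ?_)
  refine hCyc τ.quot R hC γ fun v hv => ?_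
  have h1 : ℓ'.linv v (infH2 ℓ'.M τ.H γ) = 0 := by rw [hγ]; exact hR v hv
  exact (hτ' v γ).symm.trans h1

end Abstract

/-- The class `𝒞` : `ℓ` is (a presentation of) a cyclic layer `E/k` of `p`-power degree inside
`F = k(ζ_m)`, `m` squarefree and prime to `p`, and `R` contains the places of `k` above the
primes dividing `m`. -/
def CycloLayer (p : ℕ) (ℓ : Layer QZ) (R : Set ℓ.V) : Prop :=
  ∃ (k E F : Type) (_ : Field k) (_ : NumberField k) (_ : Field E) (_ : NumberField E)
    (_ : Field F) (_ : NumberField F) (_ : Algebra k E) (_ : Algebra k F) (_ : Algebra E F)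
    (_ : IsScalarTower k E F) (_ : IsGalois k E) (_ : IsCyclic (E ≃ₐ[k] E)) (m : ℕ)
    (_ : IsCyclotomicExtension {m} k F)
    (ψ : groupCohomology ℓ.M 2 →+ groupCohomology (layerOf k E).M 2) (σ : ℓ.V ≃ FinPlace k),
    Squarefree m ∧ ¬ p ∣ m ∧ (∃ n : ℕ, Module.finrank k E = p ^ n) ∧
    (∀ v γ, ℓ.linv v γ = (layerOf k E).linv (σ v) (ψ γ)) ∧
    ∀ v, ((σ v).1 : ℕ) ∣ m → v ∈ R

/-- **Leaf (CYCREC) — reciprocity in cyclic cyclotomic layers.**  `E/k` cyclic of `p`-power
degree, `E ⊆ F = k(ζ_m)`, `m` squarefree prime to `p`, `p` odd; a class whose local invariants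
vanish at the places above the primes dividing `m` has invariant sum `0`.
(R3 of SPEC v1: `γ = cycClass σ a`; weak approximation: `a ≡ 1` at the places dividing `m` after
multiplication by a norm; unramified formula `linv v = ord_v(a) • χ(Frob_v)` off `m`;
`Frob_v ↦ N v ∈ (ℤ/m)ˣ`; product formula; `χ(±1) = 0` because `p` is odd.) -/
def CycloRecStatement (p : ℕ) : Prop :=
  p.Prime → p ≠ 2 →
  ∀ (k E F : Type) [Field k] [NumberField k] [Field E] [NumberField E] [Field F] [NumberField F]
    [Algebra k E] [Algebra k F] [Algebra E F] [IsScalarTower k E F] [IsGalois k E]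
    [IsCyclic (E ≃ₐ[k] E)] (m : ℕ) [IsCyclotomicExtension {m} k F],
    Squarefree m → ¬ p ∣ m → (∃ n : ℕ, Module.finrank k E = p ^ n) →
    ∀ γ : groupCohomology (layerOf k E).M 2,
      (∀ v : FinPlace k, (v.1 : ℕ) ∣ m → (layerOf k E).linv v γ = 0) → (layerOf k E).RecAt γ

/-- `CycRecStatement` for the class `CycloLayer p` from the concrete leaf. -/
theorem cycRec_of {p : ℕ} (hp : p.Prime) (hp2 : p ≠ 2) (h : CycloRecStatement p) :
    CycRecStatement (CycloLayer p) := by
  rintro ℓ R ⟨k, E, F, _, _, _, _, _, _, _, _, _, _, _, _, m, _, ψ, σ, hm, hpm, hn, hlinv, hR⟩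
    γ hγ
  have h1 : (layerOf k E).RecAt (ψ γ) := by
    refine h hp hp2 k E F m hm hpm hn (ψ γ) fun v hv => ?_
    have h2 := hlinv (σ.symm v) γ
    rw [Equiv.apply_symm_apply] at h2
    rw [← h2]
    exact hγ _ (hR _ (by rw [Equiv.apply_symm_apply]; exact hv))
  unfold Layer.RecAt at h1 ⊢
  exact ((finsum_congr fun v => hlinv v γ).trans
    (finsum_comp_equiv σ (f := fun v' : FinPlace k => (layerOf k E).linv v' (ψ γ)))).trans h1

/-- **Leaf (CYCLO-EXISTS)** : for a finite set `T` of finite places of `k` and `c : ℕ` there are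
a squarefree `m` prime to `p` and to the residue characteristics of `T` and a cyclic layer `E/k`
of `p`-power degree inside `F = k(ζ_m)` whose local degrees at the places of `T` are divisible
by `p ^ c`.  (N1 `PrimeOrderStatement` + N2 `CyclicQuotientStatement` + the Frobenius at `v` acts
on `ζ_m` by `N v`.) -/
def CycloLayerExistsStatement (p : ℕ) : Prop :=
  p.Prime → p ≠ 2 → ∀ (k : Type) [Field k] [NumberField k] (T : Finset (FinPlace k)) (c : ℕ),
    ∃ (m : ℕ) (E F : Type) (_ : Field E) (_ : NumberField E) (_ : Field F) (_ : NumberField F)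
      (_ : Algebra k E) (_ : Algebra k F) (_ : Algebra E F) (_ : IsScalarTower k E F)
      (_ : IsGalois k E) (_ : IsCyclic (E ≃ₐ[k] E)) (_ : IsCyclotomicExtension {m} k F),
      Squarefree m ∧ ¬ p ∣ m ∧ (∃ n : ℕ, Module.finrank k E = p ^ n) ∧
      (∀ v ∈ T, ¬ ((v.1 : ℕ) ∣ m)) ∧ ∀ v ∈ T, p ^ c ∣ locDegAt k E v

/-- **Leaf (COMPOSITUM)** : two Galois extensions of number fields have a common Galois
overfield (Mathlib only). -/
def CompositumStatement : Prop :=
  ∀ (k K E : Type) [Field k] [NumberField k] [Field K] [NumberField K] [Field E] [NumberField E]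
    [Algebra k K] [Algebra k E] [IsGalois k K] [IsGalois k E],
    ∃ (L : Type) (_ : Field L) (_ : NumberField L) (_ : Algebra k L) (_ : Algebra K L)
      (_ : Algebra E L) (_ : IsScalarTower k K L) (_ : IsScalarTower k E L), IsGalois k L

end Fermat.Agent.S55.H29
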