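/-
S55 (Poitou–Tate), package C8 — helper29.  THE EXPORTS (X4), (X5) IN THE FORM CONSUMED BY C9b
(helper70's `FinInvP.Good`, fields `exist` and `h3`), over helper74's index `H74.QSLayer S F` of
finite Galois layers `K/F` inside `ℚ_S`:

* `X4Statement p` : every finitely supported family of `p`-primary elements of `ℚ/ℤ` with sum `0`
  is the family of local invariants of a `p`-primary class of `H²(Gal(K/F), Kˣ)` for some layer
  `K` of the index.  `x4_of` : from `CyclicExStatement p` (B3) and the leaf `CycloDegStatement p`.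
* `X5Statement p` : every `p`-primary class of `H³(Gal(K/F), Kˣ)` dies in a bigger layer of the
  index (transition map `H74.layerTr`).  `x5_of` : from `H3KillStatement p` (B4) and the leaf
  `CycloExactStatement p`.

The two leaves are statements about the layers of the cyclotomic `ℤ_p`-extension `F·B_n` of `F`
(inside `ℚ_S` because `p ∈ S`).
-/
import Fermat.Agent.S55.H29.C8Cls
import Fermat.Agent.S55.H74.GalLayerPres

set_option autoImplicit false

open CategoryTheory groupCohomology Rep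

noncomputable section

namespace Fermat.Agent.S55.H29

open Fermat.Agent.S55.H88 Fermat.Agent.S55.H66 Fermat.Agent.S55.H74

attribute [local instance] factOfPrimes

/-- **Leaf (CYCLO-DEG)** : for `F ⊆ ℚ_S` finite, `p ∈ S`, a finite set `W` of finite places of
`F` and `m : ℕ`, there is a cyclic layer `K/F` of `p`-power degree inside `ℚ_S` whose local
degrees at the places of `W` are divisible by `p ^ m`.  (`K = F·B_n`, `B_n` the `n`-th layer of
the cyclotomic `ℤ_p`-extension of `ℚ`: no finite place splits completely in `F·B_∞ / F`.) -/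
def CycloDegStatement (p : ℕ) : Prop :=
  p.Prime → p ≠ 2 → ∀ (S : Finset Nat.Primes) (F : IntermediateField ℚ (AlgebraicClosure ℚ)),
    (∃ q ∈ S, (q : ℕ) = p) → F.IsUnramifiedOutside S →
    ∀ (W : Finset (FinPlace ↥F)) (m : ℕ), ∃ L : QSLayer S F,
      IsCyclic (↥L.K ≃ₐ[↥F] ↥L.K) ∧ (∃ n : ℕ, Module.finrank ↥F ↥L.K = p ^ n) ∧
      ∀ v ∈ W, p ^ m ∣ locDegAt ↥F ↥L.K v

/-- **Leaf (CYCLO-EXACT)** : for `F ⊆ ℚ_S` finite, `p ∈ S` and `a : ℕ` there is a cyclic layer
`E/F` of degree exactly `p ^ a` inside `ℚ_S` (`Gal(F·B_∞ / F) ≅ ℤ_p`). -/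
def CycloExactStatement (p : ℕ) : Prop :=
  p.Prime → p ≠ 2 → ∀ (S : Finset Nat.Primes) (F : IntermediateField ℚ (AlgebraicClosure ℚ)),
    (∃ q ∈ S, (q : ℕ) = p) → F.IsUnramifiedOutside S → ∀ a : ℕ, ∃ E : QSLayer S F,
      IsCyclic (↥E.K ≃ₐ[↥F] ↥E.K) ∧ Module.finrank ↥F ↥E.K = p ^ a

/-- **Export (X4)** for C9b. -/
def X4Statement (p : ℕ) : Prop :=
  p.Prime → p ≠ 2 → ∀ (S : Finset Nat.Primes) (F : IntermediateField ℚ (AlgebraicClosure ℚ)),
    (∃ q ∈ S, (q : ℕ) = p) → F.IsUnramifiedOutside S → (∃ ζ : ↥F, IsPrimitiveRoot ζ p) →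
    ∀ t : FinPlace ↥F → QZ, (Function.support t).Finite → (∀ v, ∃ j : ℕ, p ^ j • t v = 0) →
      ∑ᶠ v, t v = 0 →
      ∃ (L : QSLayer S F) (α : groupCohomology (layerOf ↥F ↥L.K).M 2),
        (∃ j : ℕ, p ^ j • α = 0) ∧ ∀ v, (layerOf ↥F ↥L.K).linv v α = t v

/-- **Export (X5)** for C9b. -/
def X5Statement (p : ℕ) : Prop :=
  p.Prime → p ≠ 2 → ∀ (S : Finset Nat.Primes) (F : IntermediateField ℚ (AlgebraicClosure ℚ)),
    (∃ q ∈ S, (q : ℕ) = p) → F.IsUnramifiedOutside S → (∃ ζ : ↥F, IsPrimitiveRoot ζ p) →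
    ∀ (L : QSLayer S F) (x : groupCohomology (Rep.ofAlgebraAutOnUnits ↥F ↥L.K) 3),
      (∃ j : ℕ, p ^ j • x = 0) → ∃ (L' : QSLayer S F) (h : L.K ≤ L'.K), layerTr F h 3 x = 0

/-- A finite extension of `ℚ` inside `ℚ̄` is a number field. -/
theorem numberField_of_finite (F : IntermediateField ℚ (AlgebraicClosure ℚ))
    (hF : FiniteDimensional ℚ F) : NumberField ↥F :=
  { to_charZero := inferInstance, to_finiteDimensional := hF }

theorem numberField_layer {S : Finset Nat.Primes} {F : IntermediateField ℚ (AlgebraicClosure ℚ)}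
    (L : QSLayer S F) : NumberField ↥L.K :=
  { to_charZero := inferInstance, to_finiteDimensional := L.finiteDimensional_rat }

/-- **(X4)** from (B3) and (CYCLO-DEG). -/
theorem x4_of {p : ℕ} (hEx : CyclicExStatement p) (hDeg : CycloDegStatement p) :
    X4Statement p := by
  intro hp hp2 S F hpS hF hζ t ht hprim hsum
  classical
  choose j hj using hprim
  obtain ⟨L, hcyc, ⟨n, hn⟩, hdeg⟩ := hDeg hp hp2 S F hpS hF ht.toFinset (ht.toFinset.sup j)
  haveI : NumberField ↥F := numberField_of_finite F hF.1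
  haveI : NumberField ↥L.K := numberField_layer L
  haveI := hcyc
  have hadm : ∀ v, locDegAt ↥F ↥L.K v • t v = 0 := by
    intro v
    by_cases hv : v ∈ ht.toFinset
    · obtain ⟨c, hc⟩ := hdeg v hv
      have hle : j v ≤ ht.toFinset.sup j := Finset.le_sup hv
      have h0 : p ^ (ht.toFinset.sup j) • t v = 0 := by
        obtain ⟨d, hd⟩ := Nat.exists_eq_add_of_le hle
        rw [hd, pow_add, mul_comm, mul_smul, hj, smul_zero]
      rw [hc, mul_comm, mul_smul, h0, smul_zero]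
    · have h0 : t v = 0 := by
        by_contra h
        exact hv (ht.mem_toFinset.2 h)
      rw [h0, smul_zero]
  obtain ⟨α, hα⟩ := hEx hp hp2 ↥F ↥L.K hζ ⟨n, hn⟩ t ht hadm hsum
  refine ⟨L, α, ⟨n, ?_⟩, hα⟩
  have h1 := Fermat.Agent.S55.H80.card_smul_eq_zero (Rep.ofAlgebraAutOnUnits ↥F ↥L.K) 2
    (Or.inr rfl) α
  rwa [IsGalois.card_aut_eq_finrank, hn] at h1

/-- **(X5)** from (B4) and (CYCLO-EXACT). -/
theorem x5_of {p : ℕ} (hK : H3KillStatement p) (hCE : CycloExactStatement p) :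
    X5Statement p := by
  intro hp hp2 S F hpS hF hζ L x hx
  have hpos : Module.finrank ↥F ↥L.K ≠ 0 := Module.finrank_pos.ne'
  obtain ⟨a, m', hm', hfr⟩ := Nat.exists_eq_pow_mul_and_not_dvd hpos p hp.ne_one
  obtain ⟨E, hcyc, hE⟩ := hCE hp hp2 S F hpS hF a
  have hle1 : L.K ≤ (L.sup E).K := le_sup_left
  have hle2 : E.K ≤ (L.sup E).K := le_sup_right
  refine ⟨L.sup E, hle1, ?_⟩
  haveI : NumberField ↥F := numberField_of_finite F hF.1
  haveI : NumberField ↥L.K := numberField_layer L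
  haveI : NumberField ↥E.K := numberField_layer E
  haveI : NumberField ↥(L.sup E).K := numberField_layer (L.sup E)
  letI a1 : Algebra ↥L.K ↥(L.sup E).K := layerAlgebra F hle1
  haveI t1 : IsScalarTower ↥F ↥L.K ↥(L.sup E).K := layerTower F hle1
  letI a2 : Algebra ↥E.K ↥(L.sup E).K := layerAlgebra F hle2
  haveI t2 : IsScalarTower ↥F ↥E.K ↥(L.sup E).K := layerTower F hle2
  haveI := hcyc
  have hcomp : fixSubgroup ↥F ↥L.K ↥(L.sup E).K ⊓ fixSubgroup ↥F ↥E.K ↥(L.sup E).K = ⊥ := by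
    rw [eq_bot_iff]
    rintro σ ⟨h1, h2⟩
    rw [Subgroup.mem_bot]
    haveI : Normal ↥F (AlgebraicClosure ℚ) := normal_over F
    obtain ⟨τ, rfl⟩ := AlgEquiv.restrictNormalHom_surjective (F := ↥F)
      (K₁ := ↥(L.sup E).K) (AlgebraicClosure ℚ) σ
    have hτ1 : τ ∈ L.K.fixingSubgroup := by
      rw [IntermediateField.mem_fixingSubgroup_iff]
      intro y hy
      have h3 := AlgEquiv.restrictNormal_commutes τ ↥(L.sup E).K
        (algebraMap ↥L.K ↥(L.sup E).K ⟨y, hy⟩)
      have h4 := congrArg (algebraMap ↥(L.sup E).K (AlgebraicClosure ℚ)) (h1 ⟨y, hy⟩)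
      exact h3.symm.trans h4
    have hτ2 : τ ∈ E.K.fixingSubgroup := by
      rw [IntermediateField.mem_fixingSubgroup_iff]
      intro y hy
      have h3 := AlgEquiv.restrictNormal_commutes τ ↥(L.sup E).K
        (algebraMap ↥E.K ↥(L.sup E).K ⟨y, hy⟩)
      have h4 := congrArg (algebraMap ↥(L.sup E).K (AlgebraicClosure ℚ)) (h2 ⟨y, hy⟩)
      exact h3.symm.trans h4
    have hτ : τ ∈ (L.K ⊔ E.K).fixingSubgroup := by
      rw [IntermediateField.fixingSubgroup_sup]
      exact ⟨hτ1, hτ2⟩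
    refine AlgEquiv.ext fun z => Subtype.ext ?_
    have h5 := AlgEquiv.restrictNormal_commutes τ ↥(L.sup E).K z
    exact h5.trans ((IntermediateField.mem_fixingSubgroup_iff _ τ).1 hτ z z.2)
  exact hK hp hp2 ↥F ↥L.K ↥E.K ↥(L.sup E).K hζ a m' hm' hfr hE hcomp x hx

end Fermat.Agent.S55.H29
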