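/-
S55 (Poitou–Tate), package C8 — helper29.  CLOSURE of export (B4): `H3KillStatement p` and
`X5Statement p` from the leaves of `C8Cls.lean` that are not yet theorems, all the others being
discharged by the landed proofs:

  IDELE-H3 (helper35/helper13), J-FIN (helper41), J-ADM (helper52), CYC-H3 (helper65),
  CLASS-SYLOW (helper4), CLASS-H1 (helper37), SUM-LOCDEG (helper79), FULL-PLACE (helper52),
  CYC-KER (helper99), CLASS-CYC (helper93), CLASS-PBOUND (helper37), LIFT (helper18).
-/
import Fermat.Agent.S55.H29.C8Final
import Fermat.Agent.S55.H13.IdeleH3Leaves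
import Fermat.Agent.S55.H18.C8Lift
import Fermat.Agent.S55.H37.ClassPBound
import Fermat.Agent.S55.H37.ClassH1U
import Fermat.Agent.S55.H41.JFin
import Fermat.Agent.S55.H52.JAdm
import Fermat.Agent.S55.H52.FullPlace
import Fermat.Agent.S55.H65.CycH3
import Fermat.Agent.S55.H4.ClassSylow
import Fermat.Agent.S55.H79.SumLocDeg
import Fermat.Agent.S55.H93.ClassCyc
import Fermat.Agent.S55.H99.CycKer

set_option autoImplicit false

noncomputable section

namespace Fermat.Agent.S55.H29

open Fermat.Agent.S55

/-- **(B4) from the open leaves.**  Everything else in the chain of `C8Cls.lean` is a landed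
theorem. -/
theorem h3Kill_of_open {p : ℕ} (hDet : JDetectStatement) (hInf : JInfStatement)
    (hRes : JResStatement) (hSurj : JSurjStatement) (hIR : ClassInfResStatement)
    (hRec : RecStatement NFLayer p) (hEx : CyclicExStatement p) : H3KillStatement p := by
  have hFin : JFinStatement := H41.jFinStatement
  have hAdm : JAdmStatement := H52.jAdmStatement
  have hKer : CycKerStatement p := H99.cycKer_of hEx hFin hAdm hDet
  have hCyc : ClassCycStatement p :=
    H93.classCyc_of H65.cycH3Statement hKer hRec hSurj H52.fullPlaceStatement hFin
  have hH1 : ClassH1Statement p := H37.classH1Statement p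
  have hPB : ClassPBoundStatement p := H37.classPBound_of p hCyc hH1 hIR
  have hLift : LiftStatement p :=
    H18.liftStatement_of hFin hInf hRes H79.sumLocDegStatement hIR H4.classSylowStatement hH1
      hKer hCyc hPB hRec
  exact h3Kill_of H13.ideleH3Statement hLift

end Fermat.Agent.S55.H29
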