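/-
S55 (Poitou–Tate), package C8 — helper29.  LIFT: classes of `H²(G, C)` of a general layer come,
after inflation to a bigger layer, from classes of `S`-ideles.  Model-independent, sorry-free.

* `lift_core` (pure group theory): `inf₁ : B₁ → A`, `inf₂ : B₂ → A` injective, the range of
  `inf₂` inside the ranges of `inf₁` and of `π : X → A`, `#B₂ = p ^ a`, `#B₁ ∣ p ^ a * m'`,
  `m'` prime to `p`  ⟹  `inf₁` maps the `p`-primary elements of `B₁` into the range of `π`.
* `infH2_mapH2`, `resH2_mapH2` : naturality of inflation / restriction in degree 2.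
* `lift_of_towers` : the cohomological form.  `G = Gal(K''/k)`, `J ⟶ C` the `S`-ideles and their
  classes for `K''`, `N₁ = Gal(K''/K)` (the layer of interest is `K/k`), `N₂ = Gal(K''/E)` with
  `E/k` a cyclic layer for which `H²(J) → H²(C)` is onto and `#H²(C) = p ^ a`.  If the classes
  inflated from `E/k` die in `H²(N₁, C)` (EX for the cyclic layer `K''/K` + the sum formula),
  every `p`-primary class of `H²(G ⧸ N₁, C^N₁)` inflates into the image of `H²(G, J)`.
-/
import Fermat.Agent.S55.H29.C8Core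

set_option autoImplicit false

open CategoryTheory groupCohomology Rep

noncomputable section

namespace Fermat.Agent.S55.H29

/-- **Lifting lemma (pure group theory).**  `inf₁ : B₁ → A`, `inf₂ : B₂ → A` injective, the range
of `inf₂` is contained in the ranges of `inf₁` and of `π : X → A`, `#B₂ = p ^ a` and
`#B₁ ∣ p ^ a * m'` with `m'` prime to `p`.  Then `inf₁` maps every `p`-primary element of `B₁`
into the range of `π`. -/
theorem lift_core {A B₁ B₂ X : Type*} [AddCommGroup A] [AddCommGroup B₁] [AddCommGroup B₂]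
    [AddCommGroup X] (inf₁ : B₁ →+ A) (inf₂ : B₂ →+ A) (π : X →+ A)
    (hinj₁ : Function.Injective inf₁) (hinj₂ : Function.Injective inf₂)
    (h1 : inf₂.range ≤ π.range) (h2 : inf₂.range ≤ inf₁.range)
    (p a m' : ℕ) (hp : p.Prime) (hm' : m'.Coprime p) (hB₂ : Nat.card B₂ = p ^ a)
    (hB₁ : Nat.card B₁ ∣ p ^ a * m')
    (b₁ : B₁) (hb₁ : ∃ k : ℕ, p ^ k • b₁ = 0) : inf₁ b₁ ∈ π.range := by
  obtain ⟨k, hk⟩ := hb₁
  have hpa : 0 < p ^ a := pow_pos hp.pos a
  have hm0 : m' ≠ 0 := by
    rintro rfl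
    rw [Nat.coprime_zero_left] at hm'
    exact hp.one_lt.ne' hm'
  -- cardinalities of the two ranges
  have hR : Nat.card inf₁.range = Nat.card B₁ :=
    (Nat.card_congr (AddMonoidHom.ofInjective hinj₁).toEquiv).symm
  have hT : Nat.card inf₂.range = p ^ a := by
    rw [← hB₂]; exact (Nat.card_congr (AddMonoidHom.ofInjective hinj₂).toEquiv).symm
  -- the subgroup `K = range inf₂` inside `R = range inf₁`
  set K : AddSubgroup inf₁.range := inf₂.range.addSubgroupOf inf₁.range with hK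
  have hKcard : Nat.card K = p ^ a := by
    rw [← hT]; exact Nat.card_congr (AddSubgroup.addSubgroupOfEquivOfLe h2).toEquiv
  have hidx : K.index ∣ m' := by
    have h3 : Nat.card K * K.index = Nat.card inf₁.range := AddSubgroup.card_mul_index K
    rw [hKcard, hR] at h3
    rw [← h3] at hB₁
    exact Nat.dvd_of_mul_dvd_mul_left hpa hB₁
  -- the class of `inf₁ b₁` in `R ⧸ K` is killed by `p ^ k` and by `m'`
  let r : inf₁.range := ⟨inf₁ b₁, ⟨b₁, rfl⟩⟩
  have hr : p ^ k • r = 0 := by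
    apply Subtype.ext
    rw [AddSubgroup.coe_nsmul, ← map_nsmul, hk, map_zero]; rfl
  have hx1 : p ^ k • (QuotientAddGroup.mk r : inf₁.range ⧸ K) = 0 := by
    rw [← QuotientAddGroup.mk_nsmul, hr]; rfl
  have hx2 : m' • (QuotientAddGroup.mk r : inf₁.range ⧸ K) = 0 := by
    obtain ⟨c, hc⟩ := hidx
    have h4 : K.index • (QuotientAddGroup.mk r : inf₁.range ⧸ K) = 0 := by
      rw [AddSubgroup.index_eq_card]; exact card_nsmul_eq_zero'
    rw [hc, mul_nsmul, h4, nsmul_zero]
  have hx : (QuotientAddGroup.mk r : inf₁.range ⧸ K) = 0 := by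
    have h5 : addOrderOf (QuotientAddGroup.mk r : inf₁.range ⧸ K) ∣ Nat.gcd m' (p ^ k) :=
      Nat.dvd_gcd (addOrderOf_dvd_iff_nsmul_eq_zero.2 hx2) (addOrderOf_dvd_iff_nsmul_eq_zero.2 hx1)
    rw [Nat.Coprime.pow_right k hm'] at h5
    exact AddMonoid.addOrderOf_eq_one_iff.mp (Nat.dvd_one.mp h5)
  have hrK : r ∈ K := (QuotientAddGroup.eq_zero_iff r).1 hx
  rw [hK, AddSubgroup.mem_addSubgroupOf] at hrK
  exact h1 hrK

variable {G : Type} [Group G]

/-- Naturality of inflation in degree 2. -/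
theorem infH2_mapH2 {J C : Rep.{0, 0, 0} ℤ G} (π : J ⟶ C) (N : Subgroup G) [N.Normal]
    (c : groupCohomology (J.quotientToInvariants N) 2) :
    infH2 C N (mapH2 ((quotientToInvariantsFunctor ℤ N).map π) c) = mapH2 π (infH2 J N c) := by
  have h := (infNatTrans (k := ℤ) N 2).naturality π
  exact congrArg (fun f => f.hom c) h

/-- Naturality of restriction in degree 2. -/
theorem resH2_mapH2 {J C : Rep.{0, 0, 0} ℤ G} (π : J ⟶ C) (N : Subgroup G)
    (x : groupCohomology J 2) :
    resH2 C N (mapH2 π x) = mapH2 ((resFunctor N.subtype).map π) (resH2 J N x) := by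
  have h := (resNatTrans (k := ℤ) N.subtype 2).naturality π
  exact congrArg (fun f => f.hom x) h

/-- **LIFT (cohomological form).**  See the file header. -/
theorem lift_of_towers {J C : Rep.{0, 0, 0} ℤ G} (π : J ⟶ C) (N₁ N₂ : Subgroup G) [N₁.Normal]
    [N₂.Normal]
    (hinj₁ : Function.Injective (infH2 C N₁)) (hinj₂ : Function.Injective (infH2 C N₂))
    (hex : ∀ x : groupCohomology C 2, resH2 C N₁ x = 0 → ∃ y, infH2 C N₁ y = x)
    (hsurj : Function.Surjective (mapH2 ((quotientToInvariantsFunctor ℤ N₂).map π)))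
    (hvan : ∀ c : groupCohomology (J.quotientToInvariants N₂) 2,
      mapH2 ((resFunctor N₁.subtype).map π) (resH2 J N₁ (infH2 J N₂ c)) = 0)
    (p a m' : ℕ) (hp : p.Prime) (hm' : m'.Coprime p)
    (hB₂ : Nat.card (groupCohomology (C.quotientToInvariants N₂) 2) = p ^ a)
    (hB₁ : Nat.card (groupCohomology (C.quotientToInvariants N₁) 2) ∣ p ^ a * m')
    (b₁ : groupCohomology (C.quotientToInvariants N₁) 2) (hb₁ : ∃ k : ℕ, p ^ k • b₁ = 0) :
    ∃ x : groupCohomology J 2, mapH2 π x = infH2 C N₁ b₁ := by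
  have h1 : (infH2 C N₂).range ≤ (mapH2 π).range := by
    rintro _ ⟨b₂, rfl⟩
    obtain ⟨c, rfl⟩ := hsurj b₂
    exact ⟨infH2 J N₂ c, (infH2_mapH2 π N₂ c).symm⟩
  have h2 : (infH2 C N₂).range ≤ (infH2 C N₁).range := by
    rintro _ ⟨b₂, rfl⟩
    obtain ⟨c, rfl⟩ := hsurj b₂
    exact hex _ ((congrArg (resH2 C N₁) (infH2_mapH2 π N₂ c)).trans
      ((resH2_mapH2 π N₁ _).trans (hvan c)))
  exact lift_core (infH2 C N₁) (infH2 C N₂) (mapH2 π) hinj₁ hinj₂ h1 h2 p a m' hp hm' hB₂ hB₁
    b₁ hb₁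

end Fermat.Agent.S55.H29
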